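import Mathlib.Algebra.Group.End
import Mathlib.Algebra.Group.Hom.End
import Mathlib.Algebra.Ring.Subring.Basic
import Mathlib.Algebra.BigOperators.Pi
import Mathlib.Algebra.BigOperators.Group.Finset.Piecewise
import Mathlib.GroupTheory.Subgroup.Simple
import Mathlib.Algebra.Group.Subgroup.Pointwise
import Mathlib.Tactic.Abel

/-!
# The stable elementary group over a simple ring

The ring is a ring of additive maps of a module, the matrices act on sequences. A normal subgroup
contains the commutator of an element with a transvection far outside its block, hence one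
transvection, and then by the commutator relations all of them.
-/

set_option autoImplicit false

namespace FA.BooneHigman

variable {V : Type*} [AddCommGroup V]

theorem end_neg_apply (r : AddMonoid.End V) (z : V) : (-r) z = -(r z) := rfl

theorem end_add_apply (r s : AddMonoid.End V) (z : V) : (r + s) z = r z + s z := rfl

theorem end_sub_apply (r s : AddMonoid.End V) (z : V) : (r - s) z = r z - s z := rfl

/-- Adding multiples of the coordinate `m` to the others. -/
def transv (v : ℕ → AddMonoid.End V) (m : ℕ) : Equiv.Perm (ℕ → V) where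
  toFun f x := if x = m then f x else f x + v x (f m)
  invFun f x := if x = m then f x else f x - v x (f m)
  left_inv f := funext fun x => by by_cases h : x = m <;> simp [h]
  right_inv f := funext fun x => by by_cases h : x = m <;> simp [h]

theorem transv_apply (v : ℕ → AddMonoid.End V) (m : ℕ) (f : ℕ → V) (x : ℕ) :
    transv v m f x = if x = m then f x else f x + v x (f m) := rfl

theorem transv_inv_apply (v : ℕ → AddMonoid.End V) (m : ℕ) (f : ℕ → V) (x : ℕ) :
    (transv v m)⁻¹ f x = if x = m then f x else f x - v x (f m) := rfl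

/-- The elementary transvection. -/
def elem (i j : ℕ) (r : AddMonoid.End V) : Equiv.Perm (ℕ → V) := transv (Pi.single i r) j

theorem elem_apply (i j : ℕ) (r : AddMonoid.End V) (f : ℕ → V) (x : ℕ) :
    elem i j r f x = if x = i ∧ i ≠ j then f x + r (f j) else f x := by
  rw [elem, transv_apply]
  rcases eq_or_ne x i with rfl | hxi
  · by_cases h : x = j <;> simp [h]
  · simp [hxi]

theorem elem_inv (i j : ℕ) (r : AddMonoid.End V) : (elem i j r)⁻¹ = elem i j (-r) := by
  refine Equiv.ext fun f => funext fun x => ?_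
  rw [elem, transv_inv_apply, elem_apply]
  rcases eq_or_ne x i with rfl | hxi
  · by_cases h : x = j <;> simp [h, sub_eq_add_neg, end_neg_apply]
  · simp [hxi]

theorem elem_mul (i j : ℕ) (r s : AddMonoid.End V) :
    elem i j r * elem i j s = elem i j (r + s) := by
  refine Equiv.ext fun f => funext fun x => ?_
  simp only [Equiv.Perm.mul_apply, elem_apply]
  rcases eq_or_ne x i with rfl | hxi
  · by_cases h : x = j <;> simp [h, Ne.symm, end_add_apply, add_assoc, add_comm (s (f j))]
  · simp [hxi]

theorem elem_zero (i j : ℕ) : elem i j (0 : AddMonoid.End V) = 1 :=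
  Equiv.ext fun f => funext fun x => by simp [elem_apply]

theorem elem_comm {i j l : ℕ} (hij : i ≠ j) (hjl : j ≠ l) (hil : i ≠ l)
    (r s : AddMonoid.End V) :
    elem i j r * elem j l s * (elem i j r)⁻¹ * (elem j l s)⁻¹ = elem i l (r * s) := by
  rw [elem_inv, elem_inv]
  refine Equiv.ext fun f => funext fun x => ?_
  simp only [Equiv.Perm.mul_apply, elem_apply]
  by_cases hxi : x = i
  · subst hxi
    simp [hij, hjl, hil, hij.symm, hjl.symm, hil.symm, end_neg_apply]
    abel
  · by_cases hxj : x = j <;>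
      simp [hxi, hxj, hij, hjl, hil, hij.symm, hjl.symm, hil.symm, end_neg_apply]

variable (S : Subring (AddMonoid.End V))

/-- The elementary group. -/
def elemGroup : Subgroup (Equiv.Perm (ℕ → V)) :=
  Subgroup.closure {h | ∃ i j, ∃ r ∈ S, h = elem i j r}

theorem elem_mem {i j : ℕ} {r : AddMonoid.End V} (hr : r ∈ S) : elem i j r ∈ elemGroup S :=
  Subgroup.subset_closure ⟨i, j, r, hr, rfl⟩

/-- Only a finite block is changed, by a matrix over the ring. -/
def IsBlock (h : Equiv.Perm (ℕ → V)) (M : ℕ) : Prop :=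
  ∃ c : ℕ → ℕ → AddMonoid.End V, (∀ x y, c x y ∈ S) ∧
    ∀ f x, h f x = if x < M then ∑ y ∈ Finset.range M, c x y (f y) else f x

variable {S}

theorem IsBlock.mono {h : Equiv.Perm (ℕ → V)} {M M' : ℕ} (hM : IsBlock S h M) (hle : M ≤ M') :
    IsBlock S h M' := by
  obtain ⟨c, hc, hf⟩ := hM
  refine ⟨fun x y => if x < M then (if y < M then c x y else 0) else if x = y then 1 else 0,
    fun x y => ?_, fun f x => ?_⟩
  · dsimp only
    split_ifs
    exacts [hc x y, zero_mem S, one_mem S, zero_mem S]
  · rw [hf]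
    by_cases hx : x < M
    · rw [if_pos hx, if_pos (hx.trans_le hle), ← Finset.sum_subset (Finset.range_mono hle)]
      · exact Finset.sum_congr rfl fun y hy => by simp [hx, Finset.mem_range.1 hy]
      · intro y _ hy
        simp [hx, show ¬y < M by simpa using hy]
    · rw [if_neg hx]
      by_cases hx' : x < M'
      · rw [if_pos hx', Finset.sum_eq_single x]
        · simp [hx]
        · intro y _ hy
          simp [hx, hy.symm]
        · intro h
          exact absurd (Finset.mem_range.2 hx') h
      · rw [if_neg hx']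

theorem exists_block {h : Equiv.Perm (ℕ → V)} (hh : h ∈ elemGroup S) : ∃ M, IsBlock S h M := by
  have step : ∀ i j, ∀ r ∈ S, ∀ z M, IsBlock S z M → ∃ M', IsBlock S (elem i j r * z) M' := by
    intro i j r hr z M hz
    obtain ⟨c, hc, hf⟩ := hz.mono (show M ≤ M + i + j + 1 by omega)
    refine ⟨M + i + j + 1, fun x y => if x = i ∧ i ≠ j then c x y + r * c j y else c x y,
      fun x y => ?_, fun f x => ?_⟩
    · dsimp only
      split_ifs
      exacts [add_mem (hc x y) (mul_mem hr (hc j y)), hc x y]
    · rw [Equiv.Perm.mul_apply, elem_apply]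
      have hj : j < M + i + j + 1 := by omega
      by_cases hx : x = i ∧ i ≠ j
      · rw [if_pos hx, hf, hf, if_pos hj, if_pos (by omega), map_sum, ← Finset.sum_add_distrib,
          if_pos (by omega)]
        exact Finset.sum_congr rfl fun y _ => by simp [hx.1, hx.2, end_add_apply]
      · simp only [if_neg hx]
        exact hf f x
  induction hh using Subgroup.closure_induction_left with
  | one => exact ⟨0, fun _ _ => 0, fun _ _ => zero_mem S, fun f x => by simp⟩
  | mul_left y hy z _ ih =>
    obtain ⟨i, j, r, hr, rfl⟩ := hy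
    obtain ⟨M, hM⟩ := ih
    exact step i j r hr z M hM
  | inv_mul_cancel y hy z _ ih =>
    obtain ⟨i, j, r, hr, rfl⟩ := hy
    obtain ⟨M, hM⟩ := ih
    rw [elem_inv]
    exact step i j (-r) (neg_mem hr) z M hM

/-- An element different from the identity gives one transvection. -/
theorem exists_elem_mem {N : Subgroup (Equiv.Perm (ℕ → V))} (hle : N ≤ elemGroup S)
    (hN : ∀ g ∈ elemGroup S, ∀ x ∈ N, g * x * g⁻¹ ∈ N) {h : Equiv.Perm (ℕ → V)} (hh : h ∈ N)
    (h1 : h ≠ 1) : ∃ k m, k ≠ m ∧ ∃ a ∈ S, a ≠ 0 ∧ elem k m a ∈ N := by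
  obtain ⟨M, c, hc, hf⟩ := exists_block (hle hh)
  obtain ⟨x₀, y₀, hx₀, hy₀, hne⟩ :
      ∃ x y, x < M ∧ y < M ∧ c x y ≠ (if x = y then 1 else 0) := by
    by_contra hno
    push Not at hno
    refine h1 (Equiv.ext fun f => funext fun x => ?_)
    rw [hf, Equiv.Perm.one_apply]
    by_cases hx : x < M
    · rw [if_pos hx, Finset.sum_eq_single x]
      · simp [hno x x hx hx]
      · intro y hy hyx
        simp [hno x y hx (Finset.mem_range.1 hy), hyx.symm]
      · intro h
        exact absurd (Finset.mem_range.2 hx) h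
    · rw [if_neg hx]
  let v : ℕ → AddMonoid.End V := fun x =>
    if x < M then c x y₀ - (if x = y₀ then 1 else 0) else 0
  have hT : transv v M = (elem y₀ M 1)⁻¹ * (h * elem y₀ M 1 * h⁻¹) := by
    rw [eq_inv_mul_iff_mul_eq, eq_mul_inv_iff_mul_eq]
    refine Equiv.ext fun f => funext fun x => ?_
    simp only [Equiv.Perm.mul_apply, elem_apply, transv_apply, hf, lt_irrefl, if_false]
    by_cases hx : x < M
    · have hxM : x ≠ M := hx.ne
      have hyM : y₀ ≠ M := hy₀.ne
      have hsum : ∑ y ∈ Finset.range M, c x y (if y = y₀ then f y + f M else f y) =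
          (∑ y ∈ Finset.range M, c x y (f y)) + c x y₀ (f M) := by
        have : ∀ y, c x y (if y = y₀ then f y + f M else f y) =
            c x y (f y) + if y = y₀ then c x y₀ (f M) else 0 := by
          intro y
          by_cases h : y = y₀ <;> simp [h]
        simp only [this, Finset.sum_add_distrib, Finset.sum_ite_eq', Finset.mem_range, hy₀,
          if_true]
      rcases eq_or_ne x y₀ with rfl | hxy
      · simp [hy₀, hyM, v, hsum, end_sub_apply]
        abel
      · simp [hxy, hx, hxM, hyM, v, hsum]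
    · by_cases hxM : x = M
      · subst hxM
        simp [hy₀.ne']
      · have hxy : x ≠ y₀ := fun e => hx (e ▸ hy₀)
        simp [hx, hxM, hxy, v]
  have hTN : transv v M ∈ N := by
    rw [hT, ← mul_assoc, ← mul_assoc]
    refine mul_mem ?_ (inv_mem hh)
    simpa using hN _ (inv_mem (elem_mem S (one_mem S) (i := y₀) (j := M))) h hh
  have hcomm : elem (M + 1) x₀ 1 * transv v M * (elem (M + 1) x₀ 1)⁻¹ * (transv v M)⁻¹ =
      elem (M + 1) M (v x₀) := by
    rw [elem_inv]
    refine Equiv.ext fun f => funext fun x => ?_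
    simp only [Equiv.Perm.mul_apply, elem_apply, transv_apply, transv_inv_apply]
    have h1 : v (M + 1) = 0 := by simp [v]
    have h2 : M + 1 ≠ x₀ := by omega
    have h3 : M ≠ M + 1 := by omega
    have h4 : x₀ ≠ M := hx₀.ne
    by_cases hx : x = M + 1
    · simp [hx, h1, h2, h2.symm, h4, end_neg_apply]
      abel
    · by_cases hxM : x = M <;> simp [hx, hxM, h2]
  refine ⟨M + 1, M, by omega, v x₀, ?_, ?_, ?_⟩
  · simp only [v, if_pos hx₀]
    refine sub_mem (hc x₀ y₀) ?_
    split_ifs
    exacts [one_mem S, zero_mem S]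
  · simpa [v, hx₀, sub_eq_zero] using hne
  · rw [← hcomm]
    exact mul_mem (hN _ (elem_mem S (one_mem S)) _ hTN) (inv_mem hTN)

/-- The ring contains no nonzero proper two-sided ideal. -/
def IsSimpleIn (S : Subring (AddMonoid.End V)) : Prop :=
  ∀ J : Set (AddMonoid.End V), (∀ a ∈ J, a ∈ S) → (∀ a ∈ J, ∀ b ∈ J, a + b ∈ J) →
    (∀ a ∈ J, ∀ r ∈ S, r * a ∈ J ∧ a * r ∈ J) → (∃ a ∈ J, a ≠ 0) → (1 : AddMonoid.End V) ∈ J

/-- **The elementary group over a simple ring is simple.** -/
theorem isSimpleGroup_elemGroup (hS : IsSimpleIn S) (hnt : (1 : AddMonoid.End V) ≠ 0) :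
    IsSimpleGroup (elemGroup S) := by
  have hne : elem 0 1 (1 : AddMonoid.End V) ≠ 1 := by
    intro h
    obtain ⟨z, hz⟩ : ∃ z : V, z ≠ 0 := by
      by_contra hno
      push Not at hno
      exact hnt (DFunLike.ext _ _ fun z => (hno _).trans (hno _).symm)
    have := congrFun (Equiv.ext_iff.1 h (Pi.single 1 z)) 0
    simp [elem_apply] at this
    exact hz this
  refine { exists_pair_ne := ⟨⟨_, elem_mem S (one_mem S)⟩, 1, fun e => hne
    (congrArg Subtype.val e)⟩, eq_bot_or_eq_top_of_normal := fun N₀ hN₀ => ?_ }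
  rw [or_iff_not_imp_left]
  intro hbot
  let N := N₀.map (elemGroup S).subtype
  have hle : N ≤ elemGroup S := Subgroup.map_subtype_le N₀
  have hN : ∀ g ∈ elemGroup S, ∀ x ∈ N, g * x * g⁻¹ ∈ N := by
    rintro g hg _ ⟨x, hx, rfl⟩
    exact ⟨⟨g, hg⟩ * x * ⟨g, hg⟩⁻¹, hN₀.conj_mem x hx ⟨g, hg⟩, rfl⟩
  have comm : ∀ g ∈ elemGroup S, ∀ x ∈ N, g * x * g⁻¹ * x⁻¹ ∈ N ∧ x * g * x⁻¹ * g⁻¹ ∈ N :=
    fun g hg x hx => ⟨mul_mem (hN g hg x hx) (inv_mem hx), by
      rw [mul_assoc, mul_assoc, ← mul_assoc g]
      exact mul_mem hx (hN g hg _ (inv_mem hx))⟩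
  have spread : ∀ a ∈ S, ∀ k m, k ≠ m → elem k m a ∈ N → ∀ i j, i ≠ j → elem i j a ∈ N := by
    intro a ha k m hkm hmem
    have col : ∀ i, i ≠ m → elem i m a ∈ N := by
      intro i hi
      rcases eq_or_ne i k with rfl | hik
      · exact hmem
      · have := (comm _ (elem_mem S (one_mem S) (i := i) (j := k)) _ hmem).1
        rwa [elem_comm hik hkm hi, one_mul] at this
    have most : ∀ i j, i ≠ j → i ≠ m → elem i j a ∈ N := by
      intro i j hij him
      rcases eq_or_ne j m with rfl | hjm
      · exact col i him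
      · have := (comm _ (elem_mem S (one_mem S) (i := m) (j := j)) _ (col i him)).2
        rwa [elem_comm him hjm.symm hij, mul_one] at this
    intro i j hij
    rcases eq_or_ne i m with rfl | him
    · have hl : ∃ l, l ≠ i ∧ l ≠ j := ⟨i + j + 1, by omega, by omega⟩
      obtain ⟨l, hli, hlj⟩ := hl
      have := (comm _ (elem_mem S (one_mem S) (i := i) (j := l)) _ (most l j hlj hli)).1
      rwa [elem_comm hli.symm hlj hij, one_mul] at this
    · exact most i j hij him
  let J : Set (AddMonoid.End V) := {a | a ∈ S ∧ ∀ i j, i ≠ j → elem i j a ∈ N}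
  have hex : ∃ h ∈ N, h ≠ 1 := by
    by_contra hno
    push Not at hno
    exact hbot (eq_bot_iff.2 fun x hx => Subgroup.mem_bot.2
      (Subtype.ext (hno _ ⟨x, hx, rfl⟩)))
  obtain ⟨h, hh, h1⟩ := hex
  obtain ⟨k, m, hkm, a, ha, ha0, hmem⟩ := exists_elem_mem hle hN hh h1
  have hJ : (1 : AddMonoid.End V) ∈ J := by
    refine hS J (fun b hb => hb.1) (fun b hb b' hb' => ⟨add_mem hb.1 hb'.1, fun i j hij => ?_⟩)
      (fun b hb r hr => ⟨⟨mul_mem hr hb.1, fun i j hij => ?_⟩,
        ⟨mul_mem hb.1 hr, fun i j hij => ?_⟩⟩)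
      ⟨a, ⟨ha, spread a ha k m hkm hmem⟩, ha0⟩
    · rw [← elem_mul]
      exact mul_mem (hb.2 i j hij) (hb'.2 i j hij)
    · obtain ⟨l, hli, hlj⟩ : ∃ l, l ≠ i ∧ l ≠ j := ⟨i + j + 1, by omega, by omega⟩
      rw [← elem_comm hli.symm hlj hij]
      exact (comm _ (elem_mem S hr) _ (hb.2 l j hlj)).1
    · obtain ⟨l, hli, hlj⟩ : ∃ l, l ≠ i ∧ l ≠ j := ⟨i + j + 1, by omega, by omega⟩
      rw [← elem_comm hli.symm hlj hij]
      exact (comm _ (elem_mem S hr) _ (hb.2 i l hli.symm)).2
  have hall : elemGroup S ≤ N := by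
    refine (Subgroup.closure_le _).2 ?_
    rintro _ ⟨i, j, r, hr, rfl⟩
    rcases eq_or_ne i j with rfl | hij
    · have : elem i i r = 1 := Equiv.ext fun f => funext fun x => by simp [elem_apply]
      rw [this]
      exact one_mem N
    · obtain ⟨l, hli, hlj⟩ : ∃ l, l ≠ i ∧ l ≠ j := ⟨i + j + 1, by omega, by omega⟩
      have := (comm _ (elem_mem S hr (i := i) (j := l)) _ (hJ.2 l j hlj)).1
      rwa [elem_comm hli.symm hlj hij, mul_one] at this
  exact eq_top_iff.2 fun x _ => by
    obtain ⟨y, hy, e⟩ := hall x.2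
    rwa [← Subtype.ext e]

/-- Transvections with generators of the ring generate. -/
theorem elemGroup_closure (X : Set (AddMonoid.End V)) :
    elemGroup (Subring.closure X) =
      Subgroup.closure {h | ∃ i j, ∃ r ∈ insert 1 X, h = elem i j r} := by
  let K := Subgroup.closure {h | ∃ i j, ∃ r ∈ insert 1 X, h = elem i j r}
  change _ = K
  refine le_antisymm ((Subgroup.closure_le _).2 ?_) ((Subgroup.closure_le _).2 ?_)
  · rintro _ ⟨i, j, r, hr, rfl⟩
    suffices h : ∀ i j, i ≠ j → elem i j r ∈ K by
      rcases eq_or_ne i j with rfl | hij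
      · have : elem i i r = 1 := Equiv.ext fun f => funext fun x => by simp [elem_apply]
        rw [this]
        exact one_mem K
      · exact h i j hij
    induction hr using Subring.closure_induction with
    | mem x hx =>
      exact fun i j _ => Subgroup.subset_closure ⟨i, j, x, Set.mem_insert_of_mem _ hx, rfl⟩
    | zero =>
      intro i j _
      rw [elem_zero]
      exact one_mem K
    | one => exact fun i j _ => Subgroup.subset_closure ⟨i, j, 1, Set.mem_insert _ _, rfl⟩
    | add x y _ _ hx hy =>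
      intro i j hij
      rw [← elem_mul]
      exact mul_mem (hx i j hij) (hy i j hij)
    | neg x _ hx =>
      intro i j hij
      rw [← elem_inv]
      exact inv_mem (hx i j hij)
    | mul x y _ _ hx hy =>
      intro i j hij
      obtain ⟨l, hli, hlj⟩ : ∃ l, l ≠ i ∧ l ≠ j := ⟨i + j + 1, by omega, by omega⟩
      rw [← elem_comm hli.symm hlj hij]
      exact mul_mem (mul_mem (mul_mem (hx i l hli.symm) (hy l j hlj)) (inv_mem (hx i l hli.symm)))
        (inv_mem (hy l j hlj))
  · rintro _ ⟨i, j, r, rfl | hr, rfl⟩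
    · exact elem_mem _ (one_mem _)
    · exact elem_mem _ (Subring.subset_closure hr)

/-- The operator on the coordinate zero. -/
def diagZero : (AddMonoid.End V)ˣ →* Equiv.Perm (ℕ → V) where
  toFun u :=
    { toFun := fun f x => if x = 0 then (u : AddMonoid.End V) (f x) else f x
      invFun := fun f x => if x = 0 then ((u⁻¹ : (AddMonoid.End V)ˣ) : AddMonoid.End V) (f x)
        else f x
      left_inv := fun f => funext fun x => by
        by_cases h : x = 0
        · simp only [h, if_true]
          exact DFunLike.congr_fun u.inv_mul (f 0)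
        · simp [h]
      right_inv := fun f => funext fun x => by
        by_cases h : x = 0
        · simp only [h, if_true]
          exact DFunLike.congr_fun u.mul_inv (f 0)
        · simp [h] }
  map_one' := Equiv.ext fun f => funext fun x => by by_cases h : x = 0 <;> simp [h]
  map_mul' u w := Equiv.ext fun f => funext fun x => by
    by_cases h : x = 0 <;> simp [h]

theorem diagZero_apply (u : (AddMonoid.End V)ˣ) (f : ℕ → V) (x : ℕ) :
    diagZero u f x = if x = 0 then (u : AddMonoid.End V) (f x) else f x := rfl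

theorem diagZero_injective : Function.Injective (diagZero (V := V)) := fun u w h => by
  refine Units.ext (DFunLike.ext _ _ fun z => ?_)
  have := congrFun (Equiv.ext_iff.1 h (Pi.single 0 z)) 0
  simpa [diagZero_apply] using this

/-- **Whitehead.** A commutator of units lies in the elementary group. -/
theorem diagZero_commutator_mem {a b : (AddMonoid.End V)ˣ} (ha : (a : AddMonoid.End V) ∈ S)
    (ha' : ((a⁻¹ : (AddMonoid.End V)ˣ) : AddMonoid.End V) ∈ S) (hb : (b : AddMonoid.End V) ∈ S)
    (hb' : ((b⁻¹ : (AddMonoid.End V)ˣ) : AddMonoid.End V) ∈ S) :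
    diagZero (a * b * a⁻¹ * b⁻¹) ∈ elemGroup S := by
  let A : (AddMonoid.End V)ˣ → Equiv.Perm (ℕ → V) := fun u =>
    elem 0 1 (u : AddMonoid.End V) * elem 1 0 (-((u⁻¹ : (AddMonoid.End V)ˣ) : AddMonoid.End V)) *
      elem 0 1 (u : AddMonoid.End V)
  let D : (AddMonoid.End V)ˣ → Equiv.Perm (ℕ → V) := fun u => A u * A (-1)
  have hA : ∀ u f x, A u f x = if x = 0 then (u : AddMonoid.End V) (f 1)
      else if x = 1 then -((u⁻¹ : (AddMonoid.End V)ˣ) : AddMonoid.End V) (f 0) else f x := by
    intro u f x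
    have e1 : ∀ z, (u : AddMonoid.End V) (((u⁻¹ : (AddMonoid.End V)ˣ) : AddMonoid.End V) z) = z :=
      fun z => DFunLike.congr_fun u.mul_inv z
    have e2 : ∀ z, ((u⁻¹ : (AddMonoid.End V)ˣ) : AddMonoid.End V) ((u : AddMonoid.End V) z) = z :=
      fun z => DFunLike.congr_fun u.inv_mul z
    simp only [A, Equiv.Perm.mul_apply, elem_apply]
    rcases eq_or_ne x 0 with rfl | h0
    · simp [e1, e2, end_neg_apply]
    · rcases eq_or_ne x 1 with rfl | h1
      · simp [e2, end_neg_apply]
      · simp [h0, h1]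
  have hD : ∀ u f x, D u f x = if x = 0 then (u : AddMonoid.End V) (f 0)
      else if x = 1 then ((u⁻¹ : (AddMonoid.End V)ˣ) : AddMonoid.End V) (f 1) else f x := by
    intro u f x
    simp only [D, Equiv.Perm.mul_apply, hA]
    rcases eq_or_ne x 0 with rfl | h0
    · simp [end_neg_apply]
    · rcases eq_or_ne x 1 with rfl | h1 <;> simp [*, end_neg_apply]
  have hmem : ∀ u : (AddMonoid.End V)ˣ, (u : AddMonoid.End V) ∈ S →
      ((u⁻¹ : (AddMonoid.End V)ˣ) : AddMonoid.End V) ∈ S → D u ∈ elemGroup S := by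
    have hAmem : ∀ u : (AddMonoid.End V)ˣ, (u : AddMonoid.End V) ∈ S →
        ((u⁻¹ : (AddMonoid.End V)ˣ) : AddMonoid.End V) ∈ S → A u ∈ elemGroup S := fun u hu hu' =>
      mul_mem (mul_mem (elem_mem S hu) (elem_mem S (neg_mem hu'))) (elem_mem S hu)
    intro u hu hu'
    refine mul_mem (hAmem u hu hu') (hAmem (-1) ?_ ?_)
    · simp
    · simp
  have key : diagZero (a * b * a⁻¹ * b⁻¹) = D a * D b * D (b * a)⁻¹ := by
    refine Equiv.ext fun f => funext fun x => ?_
    simp only [Equiv.Perm.mul_apply, hD, diagZero_apply, inv_inv]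
    rcases eq_or_ne x 0 with rfl | h0
    · simp [mul_inv_rev, mul_assoc]
    · rcases eq_or_ne x 1 with rfl | h1
      · have e2 : ∀ (u : (AddMonoid.End V)ˣ) z,
            ((u⁻¹ : (AddMonoid.End V)ˣ) : AddMonoid.End V) ((u : AddMonoid.End V) z) = z :=
          fun u z => DFunLike.congr_fun u.inv_mul z
        simp [e2]
      · simp [h0, h1]
  rw [key]
  refine mul_mem (mul_mem (hmem a ha ha') (hmem b hb hb')) (hmem _ ?_ ?_)
  · simpa [mul_inv_rev] using mul_mem ha' hb'
  · simpa using mul_mem hb ha

end FA.BooneHigman
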