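import Mathlib.Algebra.Field.ZMod
import Mathlib.Algebra.Group.Hom.End
import Mathlib.Algebra.BigOperators.Fin
import Mathlib.Algebra.BigOperators.Group.Finset.Piecewise
import Mathlib.Data.Fintype.BigOperators
import Mathlib.GroupTheory.Perm.Basic
import Fermat.Agent.BooneHigman.Elementary

/-!
# A simple ring containing a group

The coordinates are indexed by `G × ℤ × ℕ`. On the two valued functions of configurations act the
indicators of coordinates, the flips of single coordinates, the shift and the lamps: `g` translates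
the levels `k ≥ 0`. A move which is not the identity pushes some cylinder inside any given one off
itself, so the ring of these operators is simple.
-/

set_option autoImplicit false

namespace FA.BooneHigman

theorem zmod_two_cases (a : ZMod 2) : a = 0 ∨ a = 1 := by
  revert a
  decide

variable (G : Type) [Group G]

/-- The coordinates. -/
abbrev Coord := G × ℤ × ℕ

/-- The configurations. -/
abbrev Config := Coord G → ZMod 2

/-- The module. -/
abbrev Space := Config G → ZMod 2

variable {G}

omit [Group G] in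
/-- Multiplication by a function. -/
def mulOp (c : Config G → ZMod 2) : AddMonoid.End (Space G) where
  toFun f ω := c ω * f ω
  map_zero' := funext fun ω => mul_zero (c ω)
  map_add' f g := funext fun ω => mul_add (c ω) (f ω) (g ω)

omit [Group G] in
theorem mulOp_apply (c : Config G → ZMod 2) (f : Space G) (ω : Config G) :
    mulOp c f ω = c ω * f ω := rfl

/-- A permutation of coordinates followed by flips. -/
abbrev Move (G : Type) := Equiv.Perm (Coord G) × Config G

/-- The moved configuration. -/
def moveFun (s : Move G) (ω : Config G) : Config G := fun i => ω (s.1 i) + s.2 i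

/-- First `s`, then `s'`. -/
def moveThen (s s' : Move G) : Move G := (s.1 * s'.1, fun i => s.2 (s'.1 i) + s'.2 i)

omit [Group G] in
theorem moveFun_then (s s' : Move G) (ω : Config G) :
    moveFun (moveThen s s') ω = moveFun s' (moveFun s ω) :=
  funext fun i => (add_assoc (ω (s.1 (s'.1 i))) (s.2 (s'.1 i)) (s'.2 i)).symm

omit [Group G] in
theorem moveFun_id (ω : Config G) : moveFun ((1, 0) : Move G) ω = ω :=
  funext fun i => add_zero (ω i)

/-- The operator of a move. -/
def moveOp (s : Move G) : AddMonoid.End (Space G) where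
  toFun f ω := f (moveFun s ω)
  map_zero' := rfl
  map_add' _ _ := rfl

omit [Group G] in
theorem moveOp_apply (s : Move G) (f : Space G) (ω : Config G) :
    moveOp s f ω = f (moveFun s ω) := rfl

omit [Group G] in
theorem moveOp_mul (s s' : Move G) : moveOp s * moveOp s' = moveOp (moveThen s s') :=
  DFunLike.ext _ _ fun f => funext fun ω => by
    simp [moveOp_apply, moveFun_then]

omit [Group G] in
theorem moveOp_id : moveOp ((1, 0) : Move G) = 1 :=
  DFunLike.ext _ _ fun f => funext fun ω => congrArg f (moveFun_id ω)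

/-- The opposite move. -/
def moveInv (s : Move G) : Move G := (s.1⁻¹, fun i => s.2 (s.1⁻¹ i))

omit [Group G] in
theorem moveThen_inv (s : Move G) : moveThen s (moveInv s) = (1, 0) :=
  Prod.ext (mul_inv_cancel s.1) (funext fun _ => CharTwo.add_self_eq_zero _)

omit [Group G] in
theorem moveInv_then (s : Move G) : moveThen (moveInv s) s = (1, 0) :=
  Prod.ext (inv_mul_cancel s.1) (funext fun i => by
    simp [moveThen, moveInv, CharTwo.add_self_eq_zero])

/-- The flip of one coordinate. -/
noncomputable def flipMove (i : Coord G) : Move G :=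
  open scoped Classical in (1, Pi.single i 1)

/-- The shift of the levels. -/
def shiftPerm : Equiv.Perm (Coord G) :=
  Equiv.prodCongr (Equiv.refl G) (Equiv.prodCongr (Equiv.addRight 1) (Equiv.refl ℕ))

/-- The lamp of `g`. -/
def lampPerm : G →* Equiv.Perm (Coord G) where
  toFun g :=
    { toFun := fun z => (if 0 ≤ z.2.1 then g * z.1 else z.1, z.2)
      invFun := fun z => (if 0 ≤ z.2.1 then g⁻¹ * z.1 else z.1, z.2)
      left_inv := fun z => by by_cases h : 0 ≤ z.2.1 <;> simp [h]
      right_inv := fun z => by by_cases h : 0 ≤ z.2.1 <;> simp [h] }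
  map_one' := Equiv.ext fun z => by simp
  map_mul' g g' := Equiv.ext fun z => by by_cases h : 0 ≤ z.2.1 <;> simp [h, mul_assoc]

/-- The lamp at the level zero only. -/
def pointLamp : G →* Equiv.Perm (Coord G) where
  toFun g :=
    { toFun := fun z => (if z.2.1 = 0 then g * z.1 else z.1, z.2)
      invFun := fun z => (if z.2.1 = 0 then g⁻¹ * z.1 else z.1, z.2)
      left_inv := fun z => by by_cases h : z.2.1 = 0 <;> simp [h]
      right_inv := fun z => by by_cases h : z.2.1 = 0 <;> simp [h] }
  map_one' := Equiv.ext fun z => by simp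
  map_mul' g g' := Equiv.ext fun z => by by_cases h : z.2.1 = 0 <;> simp [h, mul_assoc]

theorem pointLamp_eq (g : G) :
    pointLamp g = lampPerm g * shiftPerm * (lampPerm g)⁻¹ * shiftPerm⁻¹ := by
  refine eq_mul_inv_of_mul_eq (eq_mul_inv_of_mul_eq (Equiv.ext fun z => ?_))
  obtain ⟨h, k, m⟩ := z
  simp only [Equiv.Perm.mul_apply, lampPerm, pointLamp, shiftPerm, MonoidHom.coe_mk, OneHom.coe_mk,
    Equiv.coe_fn_mk, Equiv.prodCongr_apply, Equiv.coe_refl, Prod.map_apply, id_eq,
    Equiv.coe_addRight]
  rcases lt_trichotomy k (-1) with hk | rfl | hk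
  · have h1 : ¬ (0 : ℤ) ≤ k := by omega
    have h2 : ¬ (0 : ℤ) ≤ k + 1 := by omega
    have h3 : k + 1 ≠ 0 := by omega
    simp [h1, h2, h3]
  · simp
  · have h1 : (0 : ℤ) ≤ k := by omega
    have h2 : (0 : ℤ) ≤ k + 1 := by omega
    have h3 : k + 1 ≠ 0 := by omega
    simp [h1, h2, h3]

variable (G)

/-- The generators of the ring. -/
def ringGens : Set (AddMonoid.End (Space G)) :=
  {r | (∃ i : Coord G, r = mulOp fun ω => ω i) ∨ (∃ i : Coord G, r = moveOp (flipMove i)) ∨
    r = moveOp (shiftPerm, 0) ∨ r = moveOp (shiftPerm⁻¹, 0) ∨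
      ∃ g : G, r = moveOp (lampPerm g, 0)}

/-- **The crossed product.** -/
def crossedRing : Subring (AddMonoid.End (Space G)) := Subring.closure (ringGens G)

variable {G}

/-- The moves of the ring. -/
structure IsGoodMove (s : Move G) : Prop where
  passive : ∀ h k m, ∀ m', (s.1 (h, k, m)).2.2 = m ∧
    (s.1 (h, k, m')).1 = (s.1 (h, k, m)).1 ∧ (s.1 (h, k, m')).2.1 = (s.1 (h, k, m)).2.1
  finite : {i | s.2 i ≠ 0}.Finite
  mem : moveOp s ∈ crossedRing G
  mem_inv : moveOp (moveInv s) ∈ crossedRing G

theorem isGoodMove_id : IsGoodMove ((1, 0) : Move G) := by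
  refine ⟨fun _ _ _ _ => ⟨rfl, rfl, rfl⟩, by simp, ?_, ?_⟩
  · rw [moveOp_id]; exact one_mem _
  · rw [show moveInv ((1, 0) : Move G) = (1, 0) from Prod.ext inv_one rfl, moveOp_id]
    exact one_mem _

theorem IsGoodMove.inv {s : Move G} (hs : IsGoodMove s) : IsGoodMove (moveInv s) := by
  refine ⟨fun h k m m' => ?_, ?_, hs.mem_inv, ?_⟩
  · obtain ⟨⟨h', k', m₁⟩, e⟩ : ∃ z, s.1⁻¹ (h, k, m) = z := ⟨_, rfl⟩
    have e' : s.1 (h', k', m₁) = (h, k, m) := by rw [← e]; simp
    obtain ⟨a1, a2, a3⟩ := hs.passive h' k' m₁ m'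
    rw [e'] at a1 a2 a3
    have a4 : s.1 (h', k', m') = (h, k, m') :=
      Prod.ext a2 (Prod.ext a3 (hs.passive h' k' m' m').1)
    have e2 : s.1⁻¹ (h, k, m') = (h', k', m') := by rw [← a4]; simp
    simp only [moveInv, e, e2]
    exact ⟨a1.symm, trivial, trivial⟩
  · exact hs.finite.preimage s.1⁻¹.injective.injOn
  · rw [show moveInv (moveInv s) = s from Prod.ext (inv_inv s.1) (funext fun i => by
      simp [moveInv])]
    exact hs.mem

theorem IsGoodMove.comp {s s' : Move G} (hs : IsGoodMove s) (hs' : IsGoodMove s') :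
    IsGoodMove (moveThen s s') := by
  refine ⟨fun h k m m' => ?_, ?_, ?_, ?_⟩
  · obtain ⟨b1, b2, b3⟩ := hs'.passive h k m m'
    obtain ⟨c1, -, -⟩ := hs'.passive h k m' m'
    obtain ⟨a1, a2, a3⟩ := hs.passive (s'.1 (h, k, m)).1 (s'.1 (h, k, m)).2.1 m m'
    have e : s'.1 (h, k, m) = ((s'.1 (h, k, m)).1, (s'.1 (h, k, m)).2.1, m) :=
      Prod.ext rfl (Prod.ext rfl b1)
    have e' : s'.1 (h, k, m') = ((s'.1 (h, k, m)).1, (s'.1 (h, k, m)).2.1, m') :=
      Prod.ext b2 (Prod.ext b3 c1)
    simp only [moveThen, Equiv.Perm.mul_apply]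
    rw [e', e]
    exact ⟨a1, a2, a3⟩
  · refine Set.Finite.subset
      ((hs.finite.preimage s'.1.injective.injOn).union hs'.finite) fun i hi => ?_
    by_contra h
    simp only [Set.mem_union, Set.mem_preimage, Set.mem_ofPred_eq, not_or, not_not] at h
    exact hi (by simp [moveThen, h.1, h.2])
  · rw [← moveOp_mul]
    exact mul_mem hs.mem hs'.mem
  · have e : moveOp (moveInv (moveThen s s')) = moveOp (moveInv s') * moveOp (moveInv s) := by
      refine (left_inv_eq_right_inv (a := moveOp (moveThen s s')) ?_ ?_)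
      · rw [moveOp_mul, moveInv_then, moveOp_id]
      · rw [← moveOp_mul, mul_assoc, ← mul_assoc (moveOp s'), moveOp_mul s', moveThen_inv,
          moveOp_id, one_mul, moveOp_mul, moveThen_inv, moveOp_id]
    rw [e]
    exact mul_mem hs'.mem_inv hs.mem_inv

theorem mem_lampPerm (g : G) : IsGoodMove ((lampPerm g, 0) : Move G) := by
  refine ⟨fun _ _ _ _ => ⟨rfl, rfl, rfl⟩, by simp,
    Subring.subset_closure (Or.inr (Or.inr (Or.inr (Or.inr ⟨g, rfl⟩)))), ?_⟩
  rw [show moveInv ((lampPerm g, 0) : Move G) = (lampPerm g⁻¹, 0) from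
    Prod.ext (map_inv lampPerm g).symm rfl]
  exact Subring.subset_closure (Or.inr (Or.inr (Or.inr (Or.inr ⟨g⁻¹, rfl⟩))))

theorem mem_shiftPerm : IsGoodMove ((shiftPerm, 0) : Move G) :=
  ⟨fun _ _ _ _ => ⟨rfl, rfl, rfl⟩, by simp,
    Subring.subset_closure (Or.inr (Or.inr (Or.inl rfl))),
    Subring.subset_closure (Or.inr (Or.inr (Or.inr (Or.inl rfl))))⟩

theorem mem_flipMove (i : Coord G) : IsGoodMove (flipMove i) := by
  classical
  have hinv : moveInv (flipMove i) = flipMove i :=
    Prod.ext (by simp [moveInv, flipMove]) (funext fun j => by simp [moveInv, flipMove])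
  have h : moveOp (flipMove i) ∈ crossedRing G :=
    Subring.subset_closure (Or.inr (Or.inl ⟨i, rfl⟩))
  refine ⟨fun _ _ _ _ => ⟨rfl, rfl, rfl⟩, (Set.finite_singleton i).subset fun j hj => ?_, h,
    hinv.symm ▸ h⟩
  by_contra hne
  exact hj (Pi.single_eq_of_ne (M := fun _ => ZMod 2) hne 1)

/-- The function depends on finitely many coordinates. -/
def IsLocal (c : Config G → ZMod 2) : Prop :=
  ∃ F : Finset (Coord G), ∀ ω ω' : Config G, (∀ i ∈ F, ω i = ω' i) → c ω = c ω'

omit [Group G] in
theorem isLocal_const (a : ZMod 2) : IsLocal fun _ : Config G => a := ⟨∅, fun _ _ _ => rfl⟩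

/-- A sum of local functions times moves. -/
def IsMoveSum (r : AddMonoid.End (Space G)) : Prop :=
  ∃ (ι : Type) (_ : Fintype ι) (s : ι → Move G) (c : ι → Config G → ZMod 2),
    (∀ x, IsGoodMove (s x) ∧ IsLocal (c x)) ∧ ∀ f ω, r f ω = ∑ x, c x ω * f (moveFun (s x) ω)

theorem isMoveSum_of_mem {r : AddMonoid.End (Space G)} (hr : r ∈ crossedRing G) : IsMoveSum r := by
  classical
  have single : ∀ (s : Move G) c, IsGoodMove s → IsLocal c →
      IsMoveSum (mulOp c * moveOp s) := fun s c hs hc =>
    ⟨Unit, inferInstance, fun _ => s, fun _ => c, fun _ => ⟨hs, hc⟩, fun f ω => by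
      simp [mulOp_apply, moveOp_apply]⟩
  have one : mulOp (fun _ : Config G => (1 : ZMod 2)) = 1 :=
    DFunLike.ext _ _ fun f => funext fun ω => by simp [mulOp_apply]
  have move : ∀ s, IsGoodMove s → IsMoveSum (moveOp s) := fun s hs => by
    simpa [one] using single s _ hs (isLocal_const 1)
  induction hr using Subring.closure_induction with
  | mem x hx =>
    rcases hx with ⟨i, rfl⟩ | ⟨i, rfl⟩ | rfl | rfl | ⟨g, rfl⟩
    · simpa [moveOp_id] using single (1, 0) (fun ω => ω i) isGoodMove_id
        ⟨{i}, fun ω ω' h => h i (Finset.mem_singleton_self i)⟩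
    · exact move _ (mem_flipMove i)
    · exact move _ mem_shiftPerm
    · exact move _ mem_shiftPerm.inv
    · exact move _ (mem_lampPerm g)
  | zero =>
    exact ⟨Empty, inferInstance, fun x => x.elim, fun x => x.elim, fun x => x.elim, fun f ω => by
      simp⟩
  | one => simpa [moveOp_id] using move _ isGoodMove_id
  | neg x _ hx =>
    obtain ⟨ι, _, s, c, hg, hx⟩ := hx
    exact ⟨ι, inferInstance, s, c, hg, fun f ω => by
      rw [end_neg_apply, Pi.neg_apply, hx, CharTwo.neg_eq]⟩
  | add x y _ _ hx hy =>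
    obtain ⟨ι, _, s, c, hg, hx⟩ := hx
    obtain ⟨ι', _, s', c', hg', hy⟩ := hy
    refine ⟨ι ⊕ ι', inferInstance, Sum.elim s s', Sum.elim c c', ?_, fun f ω => ?_⟩
    · rintro (x | x)
      exacts [hg x, hg' x]
    · rw [end_add_apply, Pi.add_apply, hx, hy, Fintype.sum_sum_type]
      rfl
  | mul x y _ _ hx hy =>
    obtain ⟨ι, _, s, c, hg, hx⟩ := hx
    obtain ⟨ι', _, s', c', hg', hy⟩ := hy
    refine ⟨ι × ι', inferInstance, fun z => moveThen (s z.1) (s' z.2),
      fun z ω => c z.1 ω * c' z.2 (moveFun (s z.1) ω), fun z => ⟨(hg z.1).1.comp (hg' z.2).1, ?_⟩,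
      fun f ω => ?_⟩
    · obtain ⟨F, hF⟩ := (hg z.1).2
      obtain ⟨F', hF'⟩ := (hg' z.2).2
      refine ⟨F ∪ F'.image (s z.1).1, fun ω ω' h => congrArg₂ (· * ·)
        (hF ω ω' fun i hi => h i (Finset.mem_union_left _ hi))
        (hF' _ _ fun i hi => ?_)⟩
      simp only [moveFun]
      rw [h _ (Finset.mem_union_right _ (Finset.mem_image_of_mem _ hi))]
    · rw [show (x * y) f = x (y f) from rfl, hx, Fintype.sum_prod_type]
      refine Finset.sum_congr rfl fun a _ => ?_
      rw [hy, Finset.mul_sum]
      exact Finset.sum_congr rfl fun b _ => by rw [moveFun_then, mul_assoc]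

/-- The indicator of a cylinder. -/
noncomputable def cylinder (F : Finset (Coord G)) (ω₀ ω : Config G) : ZMod 2 :=
  open scoped Classical in if ∀ i ∈ F, ω i = ω₀ i then 1 else 0

theorem cylinder_mem (F : Finset (Coord G)) (ω₀ : Config G) :
    mulOp (cylinder F ω₀) ∈ crossedRing G := by
  classical
  induction F using Finset.induction_on with
  | empty =>
    convert one_mem (crossedRing G)
    exact DFunLike.ext _ _ fun f => funext fun ω => by simp [mulOp_apply, cylinder]
  | @insert i F _ ih =>
    have hi : mulOp (fun ω : Config G => ω i + ω₀ i + 1) ∈ crossedRing G := by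
      have e : mulOp (fun ω : Config G => ω i + ω₀ i + 1) =
          mulOp (fun ω : Config G => ω i) + if ω₀ i = 0 then 1 else 0 := by
        refine DFunLike.ext _ _ fun f => funext fun ω => ?_
        rcases zmod_two_cases (ω₀ i) with h | h <;>
          simp [h, mulOp_apply, end_add_apply, add_mul, show (1 : ZMod 2) + 1 = 0 from rfl,
            add_assoc]
      rw [e]
      refine add_mem (Subring.subset_closure (Or.inl ⟨i, rfl⟩)) ?_
      split_ifs
      exacts [one_mem _, zero_mem _]
    convert mul_mem hi ih using 1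
    refine DFunLike.ext _ _ fun f => funext fun ω => ?_
    rw [show (mulOp (fun ω : Config G => ω i + ω₀ i + 1) * mulOp (cylinder F ω₀)) f ω =
      (ω i + ω₀ i + 1) * (cylinder F ω₀ ω * f ω) from rfl, mulOp_apply, ← mul_assoc]
    congr 1
    unfold cylinder
    by_cases h : ω i = ω₀ i
    · simp [h, CharTwo.add_self_eq_zero]
    · have : ω i + ω₀ i + 1 = 0 := by
        rcases zmod_two_cases (ω i) with e | e <;>
          rcases zmod_two_cases (ω₀ i) with e' | e' <;>
            simp_all [show (1 : ZMod 2) + 1 = 0 from rfl]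
      simp [h, this]

/-- A larger cylinder part is moved off itself by every move in a finite set. -/
theorem exists_separating (T : Finset (Move G))
    (hT : ∀ s ∈ T, IsGoodMove s ∧ s ≠ (1, 0)) (F : Finset (Coord G)) (ω₀ : Config G) :
    ∃ (F' : Finset (Coord G)) (ω₁ : Config G), F ⊆ F' ∧ (∀ i ∈ F, ω₁ i = ω₀ i) ∧
      ∀ s ∈ T, ∀ ω, (∀ i ∈ F', ω i = ω₁ i) → ¬ ∀ i ∈ F', moveFun s ω i = ω₁ i := by
  classical
  induction T using Finset.induction_on generalizing F ω₀ with
  | empty => exact ⟨F, ω₀, subset_rfl, fun _ _ => rfl, by simp⟩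
  | @insert s T _ ih =>
    obtain ⟨hs, hne⟩ := hT s (Finset.mem_insert_self s T)
    obtain ⟨F₁, ω₁, hsub, hagree, hmoved⟩ :
        ∃ (F₁ : Finset (Coord G)) (ω₁ : Config G), F ⊆ F₁ ∧ (∀ i ∈ F, ω₁ i = ω₀ i) ∧
          ∀ ω, (∀ i ∈ F₁, ω i = ω₁ i) → ¬ ∀ i ∈ F₁, moveFun s ω i = ω₁ i := by
      by_cases hq : s.1 = 1
      · obtain ⟨i, hi⟩ : ∃ i, s.2 i ≠ 0 := by
          by_contra hno
          push Not at hno
          exact hne (Prod.ext hq (funext hno))
        refine ⟨insert i F, ω₀, Finset.subset_insert i F, fun _ _ => rfl, fun ω h h' => ?_⟩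
        have h1 := h' i (Finset.mem_insert_self i F)
        simp only [moveFun, hq, Equiv.Perm.one_apply, h i (Finset.mem_insert_self i F)] at h1
        exact hi (by simpa using h1)
      · obtain ⟨⟨h, k, m₀⟩, hz⟩ : ∃ z, s.1 z ≠ z := by
          by_contra hno
          push Not at hno
          exact hq (Equiv.ext hno)
        obtain ⟨m, hm⟩ := Infinite.exists_notMem_finset
          ((F.image fun i => i.2.2) ∪ hs.finite.toFinset.image fun i => i.2.2)
        simp only [Finset.mem_union, Finset.mem_image, Set.Finite.mem_toFinset,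
          Set.mem_ofPred_eq, not_or, not_exists, not_and] at hm
        obtain ⟨p1, p2, p3⟩ := hs.passive h k m₀ m
        have hm' := (hs.passive h k m m).1
        have hij : s.1 (h, k, m) ≠ (h, k, m) := fun e => hz
          (Prod.ext (p2.symm.trans (congrArg Prod.fst e :))
            (Prod.ext (p3.symm.trans (congrArg (fun z => z.2.1) e :)) p1))
        have ha : s.2 (h, k, m) = 0 := by
          by_contra hne'
          exact hm.2 _ hne' rfl
        refine ⟨insert (h, k, m) (insert (s.1 (h, k, m)) F),
          Function.update (Function.update ω₀ (h, k, m) 0) (s.1 (h, k, m)) 1,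
          (Finset.subset_insert _ _).trans (Finset.subset_insert _ _), fun i hi => ?_,
          fun ω e e' => ?_⟩
        · rw [Function.update_of_ne, Function.update_of_ne]
          · rintro rfl
            exact hm.1 _ hi rfl
          · rintro rfl
            exact hm.1 _ hi hm'
        · have e1 := e' (h, k, m) (Finset.mem_insert_self _ _)
          rw [moveFun, e (s.1 (h, k, m)) (Finset.mem_insert_of_mem (Finset.mem_insert_self _ _)),
            Function.update_self, Function.update_of_ne hij.symm, Function.update_self, ha,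
            add_zero] at e1
          exact one_ne_zero e1
    obtain ⟨F', ω', hsub', hagree', hmoved'⟩ :=
      ih (fun s hs => hT s (Finset.mem_insert_of_mem hs)) F₁ ω₁
    refine ⟨F', ω', hsub.trans hsub', fun i hi => (hagree' i (hsub hi)).trans (hagree i hi),
      fun t ht ω e e' => ?_⟩
    rcases Finset.mem_insert.1 ht with rfl | ht
    · exact hmoved ω (fun i hi => (e i (hsub' hi)).trans (hagree' i hi))
        fun i hi => (e' i (hsub' hi)).trans (hagree' i hi)
    · exact hmoved' t ht ω e e'

/-- **The crossed product is simple.** -/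
theorem isSimpleIn_crossedRing : IsSimpleIn (crossedRing G) := by
  classical
  intro J hJS hadd hmul ⟨a, haJ, ha⟩
  -- some move has a nonzero coefficient somewhere
  obtain ⟨ι, _, s, c, hg, hsum⟩ := isMoveSum_of_mem (hJS a haJ)
  obtain ⟨f, ω₀, hne⟩ : ∃ f ω, a f ω ≠ 0 := by
    by_contra hno
    push Not at hno
    exact ha (DFunLike.ext _ _ fun f => funext fun ω => hno f ω)
  obtain ⟨x₀, hx₀⟩ : ∃ x₀, ∑ x ∈ Finset.univ.filter (fun x => s x = s x₀), c x ω₀ = 1 := by
    by_contra hno
    push Not at hno
    refine hne ?_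
    rw [hsum, ← Finset.sum_fiberwise_of_maps_to (t := Finset.univ.image s)
      fun x _ => Finset.mem_image_of_mem s (Finset.mem_univ x)]
    refine Finset.sum_eq_zero fun t ht => ?_
    obtain ⟨x₀, -, rfl⟩ := Finset.mem_image.1 ht
    have h0 : ∑ x ∈ Finset.univ.filter (fun x => s x = s x₀), c x ω₀ = 0 :=
      (zmod_two_cases _).resolve_right (hno x₀)
    rw [Finset.sum_congr rfl fun x hx => by rw [(Finset.mem_filter.1 hx).2], ← Finset.sum_mul, h0,
      zero_mul]
  -- move it to the identity
  let u : Move G := moveInv (s x₀)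
  have hu : moveOp u ∈ crossedRing G := (hg x₀).1.mem_inv
  have hid : ∀ x, moveThen (s x) u = (1, 0) ↔ s x = s x₀ := by
    intro x
    refine ⟨fun h => ?_, fun h => by rw [h, moveThen_inv]⟩
    have h' := congrArg (fun t => moveThen t (s x₀)) h
    have assoc : moveThen (moveThen (s x) u) (s x₀) = moveThen (s x) (moveThen u (s x₀)) :=
      Prod.ext (mul_assoc _ _ _) (funext fun i => by simp [moveThen, add_assoc])
    simp only [assoc, u, moveInv_then] at h'
    refine Eq.trans (Eq.trans ?_ h') ?_ <;>
      exact Prod.ext (by simp [moveThen]) (funext fun i => by simp [moveThen])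
  choose F hF using fun x => (hg x).2
  obtain ⟨F', ω₁, hsub, hagree, hmoved⟩ := exists_separating
    ((Finset.univ.image fun x => moveThen (s x) u).erase (1, 0))
    (fun t ht => by
      obtain ⟨hne, ht⟩ := Finset.mem_erase.1 ht
      obtain ⟨x, -, rfl⟩ := Finset.mem_image.1 ht
      exact ⟨(hg x).1.comp (hg x₀).1.inv, hne⟩)
    (Finset.univ.biUnion F) ω₀
  -- a cylinder lies in the ideal
  have hkey : mulOp (cylinder F' ω₁) * (a * moveOp u) * mulOp (cylinder F' ω₁) =
      mulOp (cylinder F' ω₁) := by
    refine DFunLike.ext _ _ fun f => funext fun ω => ?_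
    rw [show (mulOp (cylinder F' ω₁) * (a * moveOp u) * mulOp (cylinder F' ω₁)) f ω =
      cylinder F' ω₁ ω * a (moveOp u (mulOp (cylinder F' ω₁) f)) ω from rfl, mulOp_apply]
    by_cases hω : ∀ i ∈ F', ω i = ω₁ i
    · rw [show cylinder F' ω₁ ω = 1 from if_pos hω, one_mul, one_mul, hsum]
      have hc : ∀ x, c x ω = c x ω₀ := fun x => hF x ω ω₀ fun i hi =>
        (hω i (hsub (Finset.mem_biUnion.2 ⟨x, Finset.mem_univ x, hi⟩))).trans
          (hagree i (Finset.mem_biUnion.2 ⟨x, Finset.mem_univ x, hi⟩))
      calc ∑ x, c x ω * (moveOp u (mulOp (cylinder F' ω₁) f)) (moveFun (s x) ω)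
          = ∑ x, if s x = s x₀ then c x ω₀ * f ω else 0 := by
            refine Finset.sum_congr rfl fun x _ => ?_
            rw [moveOp_apply, mulOp_apply, ← moveFun_then, hc]
            split_ifs with h
            · rw [(hid x).2 h, moveFun_id, show cylinder F' ω₁ ω = 1 from if_pos hω, one_mul]
            · rw [show cylinder F' ω₁ (moveFun (moveThen (s x) u) ω) = 0 from
                if_neg (hmoved _ (Finset.mem_erase.2 ⟨fun e => h ((hid x).1 e),
                  Finset.mem_image_of_mem _ (Finset.mem_univ x)⟩) ω hω), zero_mul, mul_zero]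
        _ = f ω := by rw [← Finset.sum_filter, ← Finset.sum_mul, hx₀, one_mul]
    · rw [show cylinder F' ω₁ ω = 0 from if_neg hω, zero_mul, zero_mul]
  have hcyl : mulOp (cylinder F' ω₁) ∈ J :=
    hkey ▸ (hmul _ (hmul _ (hmul a haJ _ hu).2 _ (cylinder_mem F' ω₁)).1 _ (cylinder_mem F' ω₁)).2
  -- the flips enlarge it
  have hgrow : ∀ (F : Finset (Coord G)) (ω : Config G), mulOp (cylinder F ω) ∈ J →
      (1 : AddMonoid.End (Space G)) ∈ J := by
    intro F
    induction F using Finset.induction_on with
    | empty =>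
      intro ω h
      convert h
      exact DFunLike.ext _ _ fun f => funext fun ω => by simp [mulOp_apply, cylinder]
    | @insert i F hi ih =>
      intro ω h
      have hw : moveOp (flipMove i) ∈ crossedRing G := (mem_flipMove i).mem
      have h' := (hmul _ (hmul _ h _ hw).1 _ hw).2
      refine ih ω ?_
      convert hadd _ h _ h' using 1
      refine DFunLike.ext _ _ fun f => funext fun ω' => ?_
      rw [end_add_apply, Pi.add_apply, show (moveOp (flipMove i) * mulOp (cylinder (insert i F) ω) *
        moveOp (flipMove i)) f ω' = cylinder (insert i F) ω (moveFun (flipMove i) ω') *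
          f (moveFun (flipMove i) (moveFun (flipMove i) ω')) from rfl, mulOp_apply, mulOp_apply]
      have e2 : moveFun (flipMove i) (moveFun (flipMove i) ω') = ω' := funext fun j => by
        simp [moveFun, flipMove, add_assoc, CharTwo.add_self_eq_zero]
      rw [e2, ← add_mul]
      congr 1
      have hFi : (∀ j ∈ F, moveFun (flipMove i) ω' j = ω j) ↔ ∀ j ∈ F, ω' j = ω j :=
        forall₂_congr fun j hj => by
          simp [moveFun, flipMove, Pi.single_eq_of_ne (show j ≠ i from fun e => hi (e ▸ hj))]
      have hii : moveFun (flipMove i) ω' i = ω' i + 1 := by simp [moveFun, flipMove]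
      simp only [cylinder, Finset.forall_mem_insert, hFi, hii]
      by_cases hr : ∀ j ∈ F, ω' j = ω j
      · rcases zmod_two_cases (ω' i) with e | e <;>
          rcases zmod_two_cases (ω i) with e' | e' <;>
            simp [e, e', show (1 : ZMod 2) + 1 = 0 from rfl]
      · simp only [hr, and_false, if_false, add_zero]
  exact hgrow F' ω₁ hcyl

end FA.BooneHigman
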