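import Mathlib.Algebra.BigOperators.Group.List.Basic
import Mathlib.Algebra.Group.Pi.Lemmas
import Fermat.Agent.BooneHigman.CrossedProduct
import Fermat.Agent.Undecidability.GroupProblem

/-!
# Codes for the generators and an evaluation of words in transvections

A coordinate is coded by a word, two numbers whose difference is the level, and a number; a
configuration by a list of coordinates. A word in transvections sends the value at a configuration
to a sum of values at finitely many moved configurations, which are listed.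
-/

set_option autoImplicit false

namespace FA.BooneHigman

/-- A coded coordinate. -/
abbrev RawCoord (n : ℕ) := List (Fin n × Bool) × (ℕ × ℕ) × ℕ

/-- A coded generator: one, a coordinate, a flip, a shift, a lamp. -/
abbrev Code (n : ℕ) := Option (RawCoord n ⊕ (RawCoord n ⊕ (Bool ⊕ (Fin n × Bool))))

/-- A transvection. -/
abbrev Step (n : ℕ) := ℕ × ℕ × Code n

variable {n : ℕ}

/-- The opposite letter. -/
def invLetter (x : Fin n × Bool) : Fin n × Bool := (x.1, !x.2)

/-- The coordinates read by a code. -/
def codeReads : Code n → List (RawCoord n)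
  | some (.inl c) => [c]
  | _ => []

/-- The coordinates flipped by a code. -/
def codeFlips : Code n → List (RawCoord n)
  | some (.inr (.inl c)) => [c]
  | _ => []

/-- The permutation of coordinates of a code. -/
def rawPerm : Code n → RawCoord n → RawCoord n
  | some (.inr (.inr (.inl b))), (w, p, m) => (w, cond b (p.1 + 1, p.2) (p.1, p.2 + 1), m)
  | some (.inr (.inr (.inr x))), (w, p, m) => (if p.2 ≤ p.1 then x :: w else w, p, m)
  | _, c => c

/-- Its inverse. -/
def rawPermInv : Code n → RawCoord n → RawCoord n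
  | some (.inr (.inr (.inl b))), (w, p, m) => (w, cond b (p.1, p.2 + 1) (p.1 + 1, p.2), m)
  | some (.inr (.inr (.inr x))), (w, p, m) => (if p.2 ≤ p.1 then invLetter x :: w else w, p, m)
  | _, c => c

variable {G : Type} [Group G] (π : FreeGroup (Fin n) →* G)

/-- The coordinate of a code. -/
def decCoord (c : RawCoord n) : Coord G :=
  (π (FreeGroup.mk c.1), (c.2.1.1 : ℤ) - c.2.1.2, c.2.2)

theorem decCoord_cons (x : Fin n × Bool) (w : List (Fin n × Bool)) :
    π (FreeGroup.mk (x :: w)) = π (FreeGroup.mk [x]) * π (FreeGroup.mk w) := by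
  rw [← map_mul, ← List.singleton_append, Undecidability.freeMk_append]

theorem map_invLetter (x : Fin n × Bool) :
    π (FreeGroup.mk [invLetter x]) = (π (FreeGroup.mk [x]))⁻¹ := by
  obtain ⟨i, b⟩ := x
  rw [← map_inv, FreeGroup.inv_mk]
  cases b <;> rfl

/-- The move of a code. -/
noncomputable def codeMove : Code n → Move G
  | some (.inr (.inl c)) => flipMove (decCoord π c)
  | some (.inr (.inr (.inl true))) => (shiftPerm, 0)
  | some (.inr (.inr (.inl false))) => (shiftPerm⁻¹, 0)
  | some (.inr (.inr (.inr x))) => (lampPerm (π (FreeGroup.mk [x])), 0)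
  | _ => (1, 0)

/-- The operator of a code. -/
noncomputable def codeOp : Code n → AddMonoid.End (Space G)
  | some (.inl c) => mulOp fun ω => ω (decCoord π c)
  | c => moveOp (codeMove π c)

/-- The code lets the value through. -/
def Passes (c : Code n) (ω : Config G) : Prop := ∀ u ∈ codeReads c, ω (decCoord π u) = 1

open scoped Classical in
theorem codeOp_apply (c : Code n) (f : Space G) (ω : Config G) :
    codeOp π c f ω = if Passes π c ω then f (moveFun (codeMove π c) ω) else 0 := by
  rcases c with _ | c | c | b | x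
  · simp [codeOp, codeMove, Passes, codeReads, moveOp_apply]
  · rcases zmod_two_cases (ω (decCoord π c)) with h | h <;>
      simp [codeOp, codeMove, Passes, codeReads, mulOp_apply, moveFun_id, h]
  all_goals simp [codeOp, Passes, codeReads, moveOp_apply]

theorem decCoord_rawPerm (c : Code n) (u : RawCoord n) :
    decCoord π (rawPerm c u) = (codeMove π c).1 (decCoord π u) := by
  obtain ⟨w, ⟨a, b'⟩, m⟩ := u
  rcases c with _ | c | c | b | x
  · simp [rawPerm, codeMove]
  · simp [rawPerm, codeMove]
  · simp [rawPerm, codeMove, flipMove]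
  · cases b
    · have e : shiftPerm⁻¹ (π (FreeGroup.mk w), (a : ℤ) - b', m) =
          (π (FreeGroup.mk w), (a : ℤ) - b' + -1, m) := rfl
      simp only [rawPerm, codeMove, decCoord, cond_false, e]
      push_cast
      exact Prod.ext rfl (Prod.ext (by ring) rfl)
    · have e : shiftPerm (π (FreeGroup.mk w), (a : ℤ) - b', m) =
          (π (FreeGroup.mk w), (a : ℤ) - b' + 1, m) := rfl
      simp only [rawPerm, codeMove, decCoord, cond_true, e]
      push_cast
      exact Prod.ext rfl (Prod.ext (by ring) rfl)
  · have e : ∀ z : Coord G, lampPerm (π (FreeGroup.mk [x])) z =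
        (if 0 ≤ z.2.1 then π (FreeGroup.mk [x]) * z.1 else z.1, z.2) := fun _ => rfl
    simp only [rawPerm, codeMove, decCoord, e]
    by_cases h : b' ≤ a
    · simp [h, ← decCoord_cons π x w]
    · simp [h]

theorem rawPerm_inv (c : Code n) (u : RawCoord n) :
    decCoord π (rawPerm c (rawPermInv c u)) = decCoord π u := by
  obtain ⟨w, ⟨a, b'⟩, m⟩ := u
  rcases c with _ | c | c | b | x
  · rfl
  · rfl
  · rfl
  · cases b <;> simp [rawPerm, rawPermInv, decCoord]
  · by_cases h : b' ≤ a
    · simp only [rawPerm, rawPermInv, decCoord, if_pos h]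
      rw [decCoord_cons, decCoord_cons π (invLetter x), map_invLetter, mul_inv_cancel_left]
    · simp [rawPerm, rawPermInv, h]

open scoped Classical in
/-- The configuration of a list of coordinates. -/
noncomputable def confOf (A : List (RawCoord n)) : Config G :=
  (A.map fun c => (Pi.single (decCoord π c) 1 : Config G)).sum

theorem confOf_cons (c : RawCoord n) (A : List (RawCoord n)) :
    confOf π (c :: A) = (open scoped Classical in Pi.single (decCoord π c) 1) + confOf π A := rfl

theorem confOf_append (A B : List (RawCoord n)) :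
    confOf π (A ++ B) = confOf π A + confOf π B := by
  simp [confOf]

/-- The coded move. -/
def rawMove (c : Code n) (A : List (RawCoord n)) : List (RawCoord n) :=
  codeFlips c ++ A.map (rawPermInv c)

theorem confOf_rawMove (c : Code n) (A : List (RawCoord n)) :
    confOf π (rawMove c A) = moveFun (codeMove π c) (confOf π A) := by
  classical
  have h1 : confOf π (A.map (rawPermInv c)) = fun i => confOf π A ((codeMove π c).1 i) := by
    induction A with
    | nil => rfl
    | cons u A ih =>
      rw [List.map_cons, confOf_cons, confOf_cons, ih]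
      refine funext fun i => ?_
      simp only [Pi.add_apply]
      refine congrArg (· + _) ?_
      have : i = decCoord π (rawPermInv c u) ↔ (codeMove π c).1 i = decCoord π u := by
        rw [← rawPerm_inv π c u, decCoord_rawPerm]
        exact (codeMove π c).1.injective.eq_iff.symm
      simp [Pi.single_apply, this]
  have h2 : confOf π (codeFlips c) = (codeMove π c).2 := by
    rcases c with _ | c | c | b | x
    · rfl
    · rfl
    · simp [codeFlips, codeMove, flipMove, confOf]
    · cases b <;> rfl
    · rfl
  rw [rawMove, confOf_append, h1, h2]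
  exact funext fun i => add_comm _ _

/-- The word as a permutation of the sequences. -/
noncomputable def wordPerm (w : List (Step n)) : Equiv.Perm (ℕ → Space G) :=
  (w.map fun s => elem s.1 s.2.1 (codeOp π s.2.2)).prod

open scoped Classical in
/-- The moved configurations. -/
noncomputable def wordTerms : List (Step n) → ℕ → Config G → List (ℕ × Move G)
  | [], i, _ => [(i, (1, 0))]
  | (a, b, c) :: w, i, ω =>
    wordTerms w i ω ++ if i = a ∧ a ≠ b ∧ Passes π c ω then
      (wordTerms w b (moveFun (codeMove π c) ω)).map fun p => (p.1, moveThen (codeMove π c) p.2)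
      else []

theorem wordPerm_apply : ∀ (w : List (Step n)) (f : ℕ → Space G) (i : ℕ) (ω : Config G),
    wordPerm π w f i ω = ((wordTerms π w i ω).map fun p => f p.1 (moveFun p.2 ω)).sum
  | [], f, i, ω => by simp [wordPerm, wordTerms, moveFun_id]
  | (a, b, c) :: w, f, i, ω => by
    classical
    rw [show wordPerm π ((a, b, c) :: w) = elem a b (codeOp π c) * wordPerm π w from rfl,
      Equiv.Perm.mul_apply, elem_apply, wordTerms, List.map_append, List.sum_append]
    by_cases h : i = a ∧ a ≠ b
    · rw [if_pos h, Pi.add_apply, wordPerm_apply w f i ω, codeOp_apply]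
      congr 1
      by_cases hp : Passes π c ω
      · rw [if_pos hp, if_pos ⟨h.1, h.2, hp⟩, wordPerm_apply w f b, List.map_map]
        simp [Function.comp_def, moveFun_then]
      · rw [if_neg hp, if_neg fun h' => hp h'.2.2]
        rfl
    · rw [if_neg h, if_neg fun h' => h ⟨h'.1, h'.2.1⟩, wordPerm_apply w f i ω]
      simp

/-- The coordinates on which the terms depend. -/
def readSet : List (Step n) → List (RawCoord n)
  | [] => []
  | (_, _, c) :: w => codeReads c ++ readSet w ++ (readSet w).map (rawPerm c)

theorem wordTerms_congr : ∀ (w : List (Step n)) (i : ℕ) (ω ω' : Config G),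
    (∀ u ∈ readSet w, ω (decCoord π u) = ω' (decCoord π u)) →
      wordTerms π w i ω = wordTerms π w i ω'
  | [], _, _, _, _ => rfl
  | (a, b, c) :: w, i, ω, ω', h => by
    classical
    have hp : Passes π c ω ↔ Passes π c ω' :=
      forall₂_congr fun u hu => by rw [h u (by simp [readSet, hu])]
    rw [wordTerms, wordTerms, wordTerms_congr w i ω ω' fun u hu => h u (by simp [readSet, hu])]
    congr 1
    refine if_congr (by rw [hp]) ?_ rfl
    rw [wordTerms_congr w b _ (moveFun (codeMove π c) ω') fun u hu => ?_]
    have := h (rawPerm c u) (List.mem_append_right _ (List.mem_map_of_mem hu))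
    rw [decCoord_rawPerm] at this
    simp only [moveFun, this]

/-- A move which the markers tell apart from the others of its size. -/
structure IsBounded (m₀ l : ℕ) (s : Move G) : Prop where
  flips : ∀ i, s.2 i ≠ 0 → i.2.2 < m₀
  form : ∃ (d : ℤ) (a : ℤ → G), (∀ h k m, s.1 (h, k, m) = (a k * h, k + d, m)) ∧
    -(l : ℤ) ≤ d ∧ d ≤ l ∧ (∀ k ≥ (l : ℤ), a k = a l) ∧ ∀ k ≤ -(l : ℤ), a k = a (-l)

theorem isBounded_one (m₀ l : ℕ) : IsBounded m₀ l ((1, 0) : Move G) :=
  ⟨fun i hi => absurd rfl hi, 0, fun _ => 1, fun h k m => by simp, by simp, by simp,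
    fun _ _ => rfl, fun _ _ => rfl⟩

theorem IsBounded.codeMove {m₀ l : ℕ} {s : Move G} (hs : IsBounded m₀ l s) (c : Code n)
    (hc : ∀ u ∈ codeFlips c, u.2.2 < m₀) :
    IsBounded m₀ (l + 1) (moveThen (FA.BooneHigman.codeMove π c) s) := by
  classical
  obtain ⟨hfl, d, a, hq, hd1, hd2, htop, hbot⟩ := hs
  have top' : ∀ k ≥ ((l + 1 : ℕ) : ℤ), a k = a ((l + 1 : ℕ) : ℤ) := fun k hk => by
    rw [htop k (by omega), htop ((l + 1 : ℕ) : ℤ) (by omega)]
  have bot' : ∀ k ≤ -((l + 1 : ℕ) : ℤ), a k = a (-((l + 1 : ℕ) : ℤ)) := fun k hk => by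
    rw [hbot k (by omega), hbot (-((l + 1 : ℕ) : ℤ)) (by omega)]
  have flat : ∀ c : Code n, (FA.BooneHigman.codeMove π c).2 = confOf π (codeFlips c) := by
    intro c
    rcases c with _ | c | c | b | x
    · rfl
    · rfl
    · simp [codeFlips, FA.BooneHigman.codeMove, flipMove, confOf]
    · cases b <;> rfl
    · rfl
  refine ⟨fun i hi => ?_, ?_⟩
  · by_contra hlt
    have h1 : s.2 i = 0 := by_contra fun e => hlt (hfl i e)
    have h2 : confOf π (codeFlips c) (s.1 i) = 0 := by
      obtain ⟨h, k, m⟩ := i
      rw [hq]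
      revert hc
      rcases c with _ | c | c | b | x
      · exact fun _ => rfl
      · exact fun _ => rfl
      · intro hc
        have hm : c.2.2 < m₀ := hc c (by simp [codeFlips])
        have hne : (a k * h, k + d, m) ≠ decCoord π c := by
          intro e
          have e' : m = c.2.2 := congrArg (fun z => z.2.2) e
          exact hlt (by simpa [e'] using hm)
        simp [codeFlips, confOf, hne]
      · exact fun _ => rfl
      · exact fun _ => rfl
    exact hi (by simp [moveThen, flat, h1, h2])
  · have keep : ∀ (d' : ℤ), (∀ h k m, (FA.BooneHigman.codeMove π c).1 (h, k, m) = (h, k + d', m)) →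
        -1 ≤ d' → d' ≤ 1 → ∃ (d : ℤ) (a : ℤ → G),
          (∀ h k m, (moveThen (FA.BooneHigman.codeMove π c) s).1 (h, k, m) = (a k * h, k + d, m)) ∧
          -((l + 1 : ℕ) : ℤ) ≤ d ∧ d ≤ ((l + 1 : ℕ) : ℤ) ∧
          (∀ k ≥ ((l + 1 : ℕ) : ℤ), a k = a ((l + 1 : ℕ) : ℤ)) ∧
          ∀ k ≤ -((l + 1 : ℕ) : ℤ), a k = a (-((l + 1 : ℕ) : ℤ)) :=
      fun d' hc' h1 h2 => ⟨d + d', a, fun h k m => by
        simp [moveThen, hq, hc', add_assoc], by omega, by omega, top', bot'⟩
    rcases c with _ | c | c | b | x
    · exact keep 0 (fun h k m => by simp [FA.BooneHigman.codeMove]) (by omega) (by omega)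
    · exact keep 0 (fun h k m => by simp [FA.BooneHigman.codeMove]) (by omega) (by omega)
    · exact keep 0 (fun h k m => by simp [FA.BooneHigman.codeMove, flipMove]) (by omega) (by omega)
    · cases b
      · exact keep (-1) (fun h k m => rfl) (by omega) (by omega)
      · exact keep 1 (fun h k m => rfl) (by omega) (by omega)
    · refine ⟨d, fun k => (if 0 ≤ k + d then π (FreeGroup.mk [x]) else 1) * a k,
        fun h k m => ?_, by omega, by omega, fun k hk => ?_, fun k hk => ?_⟩
      · simp only [moveThen, Equiv.Perm.mul_apply, hq]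
        change (if 0 ≤ k + d then π (FreeGroup.mk [x]) * (a k * h) else a k * h, k + d, m) = _
        by_cases h' : 0 ≤ k + d <;> simp [h', mul_assoc]
      · dsimp only
        rw [if_pos (show 0 ≤ k + d by omega),
          if_pos (show 0 ≤ ((l + 1 : ℕ) : ℤ) + d by omega), top' k hk]
      · dsimp only
        rw [if_neg (show ¬0 ≤ k + d by omega),
          if_neg (show ¬0 ≤ -((l + 1 : ℕ) : ℤ) + d by omega), bot' k hk]

theorem IsBounded.mono {m₀ l l' : ℕ} {s : Move G} (hs : IsBounded m₀ l s) (h : l ≤ l') :
    IsBounded m₀ l' s := by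
  obtain ⟨hfl, d, a, hq, hd1, hd2, htop, hbot⟩ := hs
  exact ⟨hfl, d, a, hq, by omega, by omega,
    fun k hk => by rw [htop k (by omega), htop (l' : ℤ) (by omega)],
    fun k hk => by rw [hbot k (by omega), hbot (-(l' : ℤ)) (by omega)]⟩

theorem isBounded_wordTerms {m₀ : ℕ} : ∀ (w : List (Step n)) (i : ℕ) (ω : Config G),
    (∀ s ∈ w, ∀ u ∈ codeFlips s.2.2, u.2.2 < m₀) →
      ∀ p ∈ wordTerms π w i ω, IsBounded m₀ w.length p.2
  | [], i, ω, _, p, hp => by
    obtain rfl : p = (i, (1, 0)) := by simpa [wordTerms] using hp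
    exact isBounded_one m₀ _
  | (a, b, c) :: w, i, ω, hw, p, hp => by
    classical
    obtain ⟨hc, hw⟩ := List.forall_mem_cons.1 hw
    rw [wordTerms, List.mem_append] at hp
    rcases hp with hp | hp
    · exact (isBounded_wordTerms w i ω hw p hp).mono (Nat.le_succ _)
    · split_ifs at hp with h
      · obtain ⟨p', hp', rfl⟩ := List.mem_map.1 hp
        exact (isBounded_wordTerms w b _ hw p' hp').codeMove π c hc
      · exact absurd hp List.not_mem_nil

/-- The markers. -/
def markers (N m₀ : ℕ) : List (RawCoord n) :=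
  (List.range (2 * N + 1)).map fun j => ([], (j, N), m₀)

open scoped Classical in
theorem confOf_markers (N m₀ : ℕ) (z : Coord G) :
    confOf π (markers (n := n) N m₀) z =
      if z.1 = 1 ∧ -(N : ℤ) ≤ z.2.1 ∧ z.2.1 ≤ N ∧ z.2.2 = m₀ then 1 else 0 := by
  have hsum : confOf π (markers (n := n) N m₀) z = ∑ j ∈ Finset.range (2 * N + 1),
      (Pi.single (decCoord π (([], (j, N), m₀) : RawCoord n)) (1 : ZMod 2) : Config G) z := by
    rw [confOf, markers, List.map_map, Pi.list_sum_apply, List.map_map]
    rfl
  rw [hsum]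
  have hdec : ∀ j : ℕ, decCoord π (([], (j, N), m₀) : RawCoord n) = (1, (j : ℤ) - N, m₀) := fun j =>
    Prod.ext (map_one π) rfl
  simp only [hdec, Pi.single_apply]
  split_ifs with h
  · obtain ⟨h1, h2, h3, h4⟩ := h
    rw [Finset.sum_eq_single (z.2.1 + N).toNat]
    · rw [if_pos]
      refine Prod.ext h1 (Prod.ext ?_ h4)
      simp only
      omega
    · intro j _ hj
      rw [if_neg]
      intro e
      refine hj ?_
      have := congrArg (fun z => z.2.1) e
      simp only at this
      omega
    · intro hj
      exact absurd (Finset.mem_range.2 (by omega)) hj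
  · refine Finset.sum_eq_zero fun j hj => if_neg fun e => h ?_
    subst e
    have := Finset.mem_range.1 hj
    exact ⟨rfl, by simp only; omega, by simp only; omega, rfl⟩

/-- **The markers separate the bounded moves.** -/
theorem moveFun_injective_of_markers {m₀ l N : ℕ} (hN : 2 * l + 1 ≤ N) {ω₀ : Config G}
    (hω₀ : ∀ z : Coord G, z.2.2 = m₀ → ω₀ z = confOf π (markers (n := n) N m₀) z) {s s' : Move G}
    (hs : IsBounded m₀ l s) (hs' : IsBounded m₀ l s') (h : moveFun s ω₀ = moveFun s' ω₀) :
    s = s' := by
  classical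
  obtain ⟨hfl, d, a, hq, hd1, hd2, htop, hbot⟩ := hs
  obtain ⟨hfl', d', a', hq', hd1', hd2', htop', hbot'⟩ := hs'
  have key : ∀ k : ℤ, -(N : ℤ) ≤ k + d → k + d ≤ N →
      a' k = a k ∧ -(N : ℤ) ≤ k + d' ∧ k + d' ≤ N := by
    intro k h1 h2
    have e := congrFun h ((a k)⁻¹, k, m₀)
    have z1 : s.2 ((a k)⁻¹, k, m₀) = 0 := by_contra fun e => lt_irrefl _ (hfl _ e)
    have z2 : s'.2 ((a k)⁻¹, k, m₀) = 0 := by_contra fun e => lt_irrefl _ (hfl' _ e)
    simp only [moveFun, z1, z2, add_zero, hq, hq', mul_inv_cancel] at e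
    rw [hω₀ _ rfl, hω₀ _ rfl, confOf_markers, confOf_markers, if_pos ⟨rfl, h1, h2, rfl⟩] at e
    split_ifs at e with h'
    · exact ⟨mul_inv_eq_one.1 h'.1, h'.2.1, h'.2.2.1⟩
    · exact absurd e one_ne_zero
  have k1 := key (N - d) (by omega) (by omega)
  have k2 := key (-(N : ℤ) - d) (by omega) (by omega)
  have hd : d' = d := by omega
  have ha : ∀ k, a' k = a k := by
    intro k
    have top := (key l (by omega) (by omega)).1
    have bot := (key (-(l : ℤ)) (by omega) (by omega)).1
    by_cases h1 : (l : ℤ) ≤ k
    · rw [htop' k h1, htop k h1, top]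
    by_cases h2 : k ≤ -(l : ℤ)
    · rw [hbot' k h2, hbot k h2, bot]
    exact (key k (by omega) (by omega)).1
  have hperm : s.1 = s'.1 := Equiv.ext fun ⟨g, k, m⟩ => by rw [hq, hq', ha, hd]
  refine Prod.ext hperm (funext fun i => ?_)
  have := congrFun h i
  simp only [moveFun, hperm] at this
  exact add_left_cancel this

end FA.BooneHigman
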