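import Fermat.Agent.BooneHigman.Test
import Fermat.Agent.Undecidability.AdianRabin

/-!
# The test is computable

The list operations are compositions of recursions; only the comparison of coordinates calls the
test for the trivial element.
-/

set_option autoImplicit false

namespace FA.BooneHigman

section lists

variable {α β γ : Type} [Primcodable α] [Primcodable β] [Primcodable γ]

theorem computable_foldl {l : α → List β} {i : α → γ} {h : α → γ → β → γ} (hl : Computable l)
    (hi : Computable i) (hh : Computable fun p : (α × γ) × β => h p.1.1 p.1.2 p.2) :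
    Computable fun a => (l a).foldl (h a) (i a) := by
  let step : α → ℕ × γ → γ := fun a p =>
    Option.casesOn ((l a)[p.1]?) p.2 fun b => h a p.2 b
  have hstep : Computable₂ step :=
    (Computable.option_casesOn
      (Computable.list_getElem?.comp (hl.comp Computable.fst)
        (Computable.fst.comp Computable.snd))
      (Computable.snd.comp Computable.snd)
      (hh.comp (Computable.pair (Computable.pair (Computable.fst.comp Computable.fst)
        (Computable.snd.comp (Computable.snd.comp Computable.fst))) Computable.snd)).to₂).to₂
  refine (Computable.nat_rec (Computable.list_length.comp hl) hi hstep).of_eq fun a => ?_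
  have key : ∀ k ≤ (l a).length,
      Nat.rec (motive := fun _ => γ) (i a) (fun j s => step a (j, s)) k =
        ((l a).take k).foldl (h a) (i a) := by
    intro k hk
    induction k with
    | zero => rfl
    | succ k ih =>
      simp only [step] at ih ⊢
      rw [ih (Nat.le_of_succ_le hk), List.getElem?_eq_getElem hk,
        List.take_succ_eq_append_getElem hk, List.foldl_append]
      rfl
  simpa [step] using key _ le_rfl

theorem computable_map {l : α → List β} {f : α → β → γ} (hl : Computable l)
    (hf : Computable₂ f) : Computable fun a => (l a).map (f a) := by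
  refine (computable_foldl (h := fun a s b => s ++ [f a b]) hl (Computable.const [])
    (Computable.list_append.comp (Computable.snd.comp Computable.fst)
      (Computable.list_cons.comp (hf.comp (Computable.fst.comp Computable.fst) Computable.snd)
        (Computable.const [])))).of_eq fun a => ?_
  suffices h : ∀ (L : List β) s, L.foldl (fun s b => s ++ [f a b]) s = s ++ L.map (f a) by
    simpa using h (l a) []
  intro L
  induction L with
  | nil => simp
  | cons b L ih => intro s; simp [ih]

theorem computable_flatMap {l : α → List β} {f : α → β → List γ} (hl : Computable l)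
    (hf : Computable₂ f) : Computable fun a => (l a).flatMap (f a) :=
  (Primrec.list_flatten.to_comp.comp (computable_map hl hf)).of_eq fun a => by
    rw [List.flatMap_def]

theorem computable_all {l : α → List β} {f : α → β → Bool} (hl : Computable l)
    (hf : Computable₂ f) : Computable fun a => (l a).all (f a) := by
  have h : Primrec fun m : List Bool => m.foldr (fun b s => b && s) true :=
    Primrec.list_foldr Primrec.id (Primrec.const true)
      (Primrec.and.comp (Primrec.fst.comp Primrec.snd) (Primrec.snd.comp Primrec.snd)).to₂
  refine (h.to_comp.comp (computable_map hl hf)).of_eq fun a => ?_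
  induction l a with
  | nil => rfl
  | cons b L ih => simp [← ih]

theorem computable_countTrue {l : α → List β} {f : α → β → Bool} (hl : Computable l)
    (hf : Computable₂ f) : Computable fun a => ((l a).filter (f a)).length := by
  refine (computable_foldl (h := fun a s b => cond (f a b) (s + 1) s) hl (Computable.const 0)
    (Computable.cond (hf.comp (Computable.fst.comp Computable.fst) Computable.snd)
      (Computable.succ.comp (Computable.snd.comp Computable.fst))
      (Computable.snd.comp Computable.fst))).of_eq fun a => ?_
  suffices h : ∀ (L : List β) s,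
      L.foldl (fun s b => cond (f a b) (s + 1) s) s = s + (L.filter (f a)).length by
    simpa using h (l a) 0
  intro L
  induction L with
  | nil => simp
  | cons b L ih =>
    intro s
    cases h : f a b <;> simp [ih, h, add_assoc, add_comm 1]

end lists

variable {n : ℕ}

theorem primrec_codeReads : Primrec (codeReads : Code n → List (RawCoord n)) := by
  refine (Primrec.option_casesOn Primrec.id (Primrec.const [])
    (Primrec.sumCasesOn Primrec.snd
      (Primrec.list_cons.comp Primrec.snd (Primrec.const [])).to₂
      (Primrec.const []).to₂).to₂).of_eq fun c => ?_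
  rcases c with _ | c | c <;> rfl

theorem primrec_codeFlips : Primrec (codeFlips : Code n → List (RawCoord n)) := by
  refine (Primrec.option_casesOn Primrec.id (Primrec.const [])
    (Primrec.sumCasesOn Primrec.snd (Primrec.const []).to₂
      (Primrec.sumCasesOn Primrec.snd
        (Primrec.list_cons.comp Primrec.snd (Primrec.const [])).to₂
        (Primrec.const []).to₂).to₂).to₂).of_eq fun c => ?_
  rcases c with _ | c | c | c <;> rfl

theorem primrec_permWith {turn : Bool → ℕ × ℕ → ℕ × ℕ} (ht : Primrec₂ turn)
    {adj : Fin n × Bool → Fin n × Bool} :
    Primrec₂ fun (c : Code n) (u : RawCoord n) => match c, u with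
      | some (.inr (.inr (.inl b))), (w, p, m) => (w, turn b p, m)
      | some (.inr (.inr (.inr x))), (w, p, m) => (if p.2 ≤ p.1 then adj x :: w else w, p, m)
      | _, c => c := by
  have hs : Primrec₂ fun (u : RawCoord n) (b : Bool) => (u.1, turn b u.2.1, u.2.2) :=
    (Primrec.pair (Primrec.fst.comp Primrec.fst) (Primrec.pair
      (ht.comp Primrec.snd (Primrec.fst.comp (Primrec.snd.comp Primrec.fst)))
      (Primrec.snd.comp (Primrec.snd.comp Primrec.fst)))).to₂
  have hl : Primrec₂ fun (u : RawCoord n) (x : Fin n × Bool) =>
      (if u.2.1.2 ≤ u.2.1.1 then adj x :: u.1 else u.1, u.2.1, u.2.2) :=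
    (Primrec.pair
      (Primrec.ite (Primrec.nat_le.comp
          (Primrec.snd.comp (Primrec.fst.comp (Primrec.snd.comp Primrec.fst)))
          (Primrec.fst.comp (Primrec.fst.comp (Primrec.snd.comp Primrec.fst))))
        (Primrec.list_cons.comp ((Primrec.dom_finite adj).comp Primrec.snd)
          (Primrec.fst.comp Primrec.fst))
        (Primrec.fst.comp Primrec.fst))
      (Primrec.pair (Primrec.fst.comp (Primrec.snd.comp Primrec.fst))
        (Primrec.snd.comp (Primrec.snd.comp Primrec.fst)))).to₂
  refine (Primrec.option_casesOn Primrec.fst Primrec.snd
    (Primrec.sumCasesOn Primrec.snd (Primrec.snd.comp (Primrec.fst.comp Primrec.fst)).to₂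
      (Primrec.sumCasesOn Primrec.snd
        (Primrec.snd.comp (Primrec.fst.comp (Primrec.fst.comp Primrec.fst))).to₂
        (Primrec.sumCasesOn Primrec.snd
          (hs.comp (Primrec.snd.comp
            (Primrec.fst.comp (Primrec.fst.comp (Primrec.fst.comp Primrec.fst)))) Primrec.snd).to₂
          (hl.comp (Primrec.snd.comp
            (Primrec.fst.comp (Primrec.fst.comp (Primrec.fst.comp Primrec.fst))))
            Primrec.snd).to₂).to₂).to₂).to₂).to₂.of_eq fun c u => ?_
  obtain ⟨w, p, m⟩ := u
  rcases c with _ | c | c | c | c <;> rfl

theorem primrec_rawPerm : Primrec₂ (rawPerm : Code n → RawCoord n → RawCoord n) := by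
  have ht : Primrec₂ fun (b : Bool) (p : ℕ × ℕ) => cond b (p.1 + 1, p.2) (p.1, p.2 + 1) :=
    (Primrec.cond Primrec.fst
      (Primrec.pair (Primrec.succ.comp (Primrec.fst.comp Primrec.snd))
        (Primrec.snd.comp Primrec.snd))
      (Primrec.pair (Primrec.fst.comp Primrec.snd)
        (Primrec.succ.comp (Primrec.snd.comp Primrec.snd)))).to₂
  exact (primrec_permWith (adj := fun x => x) ht).of_eq fun c u => by
    obtain ⟨w, p, m⟩ := u
    rcases c with _ | c | c | c | c <;> rfl

theorem primrec_rawPermInv : Primrec₂ (rawPermInv : Code n → RawCoord n → RawCoord n) := by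
  have ht : Primrec₂ fun (b : Bool) (p : ℕ × ℕ) => cond b (p.1, p.2 + 1) (p.1 + 1, p.2) :=
    (Primrec.cond Primrec.fst
      (Primrec.pair (Primrec.fst.comp Primrec.snd)
        (Primrec.succ.comp (Primrec.snd.comp Primrec.snd)))
      (Primrec.pair (Primrec.succ.comp (Primrec.fst.comp Primrec.snd))
        (Primrec.snd.comp Primrec.snd))).to₂
  exact (primrec_permWith (adj := invLetter) ht).of_eq fun c u => by
    obtain ⟨w, p, m⟩ := u
    rcases c with _ | c | c | c | c <;> rfl

theorem primrec_rawMove : Primrec₂ (rawMove : Code n → List (RawCoord n) → List (RawCoord n)) :=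
  (Primrec.list_append.comp (primrec_codeFlips.comp Primrec.fst)
    (Primrec.list_map Primrec.snd
      (primrec_rawPermInv.comp (Primrec.fst.comp Primrec.fst) Primrec.snd).to₂)).to₂

theorem primrec_readSet : Primrec (readSet : List (Step n) → List (RawCoord n)) := by
  refine (Primrec.list_foldr Primrec.id (Primrec.const [])
    (h := fun _ p => codeReads p.1.2.2 ++ p.2 ++ p.2.map (rawPerm p.1.2.2)) ?_).of_eq fun w => ?_
  · have hc : Primrec fun p : List (Step n) × Step n × List (RawCoord n) => p.2.1.2.2 :=
      Primrec.snd.comp (Primrec.snd.comp (Primrec.fst.comp Primrec.snd))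
    exact (Primrec.list_append.comp (Primrec.list_append.comp (primrec_codeReads.comp hc)
      (Primrec.snd.comp Primrec.snd))
      (Primrec.list_map (Primrec.snd.comp Primrec.snd)
        (primrec_rawPerm.comp (hc.comp Primrec.fst) Primrec.snd).to₂)).to₂
  · induction w with
    | nil => rfl
    | cons s w ih =>
      simp only [id_eq] at ih ⊢
      rw [List.foldr_cons, ih]
      rfl

theorem primrec_patterns {α : Type} [Primcodable α] :
    Primrec (patterns : List α → List (List α)) :=
  Primrec.list_foldr Primrec.id (Primrec.const [[]])
    (Primrec.list_append.comp (Primrec.snd.comp Primrec.snd)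
      (Primrec.list_map (Primrec.snd.comp Primrec.snd)
        (Primrec.list_cons.comp (Primrec.fst.comp (Primrec.snd.comp Primrec.fst))
          Primrec.snd).to₂)).to₂

theorem primrec_listSum : Primrec (List.sum : List ℕ → ℕ) :=
  (Primrec.list_foldr Primrec.id (Primrec.const 0)
    (Primrec.nat_add.comp (Primrec.fst.comp Primrec.snd)
      (Primrec.snd.comp Primrec.snd)).to₂).of_eq fun l => by
    induction l with
    | nil => rfl
    | cons a l ih => simp only [id_eq, List.foldr_cons, List.sum_cons] at ih ⊢; rw [ih]

theorem primrec_markLevel : Primrec (markLevel : List (Step n) → ℕ) :=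
  Primrec.succ.comp (primrec_listSum.comp (Primrec.list_map
    (Primrec.list_append.comp primrec_readSet (Primrec.list_flatMap Primrec.id
      (primrec_codeFlips.comp (Primrec.snd.comp (Primrec.snd.comp Primrec.snd))).to₂))
    (Primrec.snd.comp (Primrec.snd.comp Primrec.snd)).to₂))

theorem primrec_markers : Primrec₂ (markers (n := n)) :=
  (Primrec.list_map (Primrec.list_range.comp (Primrec.succ.comp
      (Primrec.nat_mul.comp (Primrec.const 2) Primrec.fst)))
    (Primrec.pair (Primrec.const []) (Primrec.pair
      (Primrec.pair Primrec.snd (Primrec.fst.comp Primrec.fst))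
      (Primrec.snd.comp Primrec.fst))).to₂).to₂

variable {eqw : List (Fin n × Bool) → Bool}

theorem computable_coordEq (he : Computable eqw) : Computable₂ (coordEq eqw) := by
  have h : Primrec₂ fun c d : RawCoord n =>
      decide (c.2.1.1 + d.2.1.2 = d.2.1.1 + c.2.1.2) && decide (c.2.2 = d.2.2) :=
    (Primrec.and.comp
      (PrimrecPred.decide (Primrec.eq.comp
        (Primrec.nat_add.comp (Primrec.fst.comp (Primrec.fst.comp (Primrec.snd.comp Primrec.fst)))
          (Primrec.snd.comp (Primrec.fst.comp (Primrec.snd.comp Primrec.snd))))
        (Primrec.nat_add.comp (Primrec.fst.comp (Primrec.fst.comp (Primrec.snd.comp Primrec.snd)))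
          (Primrec.snd.comp (Primrec.fst.comp (Primrec.snd.comp Primrec.fst))))))
      (PrimrecPred.decide (Primrec.eq.comp (Primrec.snd.comp (Primrec.snd.comp Primrec.fst))
        (Primrec.snd.comp (Primrec.snd.comp Primrec.snd))))).to₂
  have hw : Primrec₂ fun c d : RawCoord n => c.1 ++ FreeGroup.invRev d.1 :=
    (Primrec.list_append.comp (Primrec.fst.comp Primrec.fst)
      (Undecidability.primrec_invRev.comp (Primrec.fst.comp Primrec.snd))).to₂
  exact (Primrec.and.to_comp.comp (he.comp hw.to_comp) h.to_comp).to₂

theorem computable_confVal (he : Computable eqw) : Computable₂ (confVal eqw) := by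
  have h : Primrec fun k : ℕ => decide (k % 2 = 1) :=
    PrimrecPred.decide (Primrec.eq.comp (Primrec.nat_mod.comp Primrec.id (Primrec.const 2))
      (Primrec.const 1))
  exact (h.to_comp.comp (computable_countTrue Computable.fst
    ((computable_coordEq he).comp Computable.snd
      (Computable.snd.comp Computable.fst)).to₂)).to₂

theorem computable_termEq (he : Computable eqw) : Computable₂ (termEq eqw) := by
  have hcat : Computable fun p : (ℕ × List (RawCoord n)) × (ℕ × List (RawCoord n)) =>
      p.1.2 ++ p.2.2 :=
    Computable.list_append.comp (Computable.snd.comp Computable.fst)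
      (Computable.snd.comp Computable.snd)
  exact (Primrec.and.to_comp.comp
    ((PrimrecPred.decide (Primrec.eq.comp (Primrec.fst.comp Primrec.fst)
      (Primrec.fst.comp Primrec.snd))).to_comp)
    (computable_all hcat (Primrec.not.to_comp.comp
      ((computable_confVal he).comp (hcat.comp Computable.fst) Computable.snd)).to₂)).to₂

theorem computable_rawStep (he : Computable eqw) : Computable₂ (rawStep eqw) := by
  have hc : Computable fun q : Step n × (ℕ × List (RawCoord n)) => q.1.2.2 :=
    Computable.snd.comp (Computable.snd.comp Computable.fst)
  have hA : Computable fun q : Step n × (ℕ × List (RawCoord n)) => q.2.2 :=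
    Computable.snd.comp Computable.snd
  have h1 : Primrec fun q : Step n × (ℕ × List (RawCoord n)) => decide (q.2.1 = q.1.1) :=
    PrimrecPred.decide (Primrec.eq.comp (Primrec.fst.comp Primrec.snd)
      (Primrec.fst.comp Primrec.fst))
  have h2 : Primrec fun q : Step n × (ℕ × List (RawCoord n)) => !decide (q.1.1 = q.1.2.1) :=
    Primrec.not.comp (PrimrecPred.decide (Primrec.eq.comp (Primrec.fst.comp Primrec.fst)
      (Primrec.fst.comp (Primrec.snd.comp Primrec.fst))))
  exact (Computable.list_cons.comp Computable.snd
    (Computable.cond (Primrec.and.to_comp.comp h1.to_comp (Primrec.and.to_comp.comp h2.to_comp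
      (computable_all (primrec_codeReads.to_comp.comp hc)
        ((computable_confVal he).comp (hA.comp Computable.fst) Computable.snd).to₂)))
      (Computable.list_cons.comp (Computable.pair
        (Computable.fst.comp (Computable.snd.comp Computable.fst))
        (primrec_rawMove.to_comp.comp hc hA)) (Computable.const []))
      (Computable.const []))).to₂

theorem computable_rawTerms (he : Computable eqw) : Computable₂ (rawTerms eqw) := by
  have hstep : Computable₂ fun (q : List (ℕ × List (RawCoord n)) × Step n)
      (p : ℕ × List (RawCoord n)) => rawStep eqw q.2 p :=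
    Computable₂.comp (computable_rawStep he) (Computable.snd.comp Computable.fst) Computable.snd
  have hmap : Computable fun q : List (ℕ × List (RawCoord n)) × Step n =>
      q.1.flatMap (rawStep eqw q.2) := computable_flatMap Computable.fst hstep
  have hfold : Computable₂ fun (w : List (Step n)) (L : List (ℕ × List (RawCoord n))) =>
      w.foldl (fun L s => L.flatMap (rawStep eqw s)) L :=
    Computable.to₂ (computable_foldl (h := fun _ L s => L.flatMap (rawStep eqw s))
      (l := fun z : List (Step n) × List (ℕ × List (RawCoord n)) => z.1)
      (i := fun z => z.2) Computable.fst Computable.snd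
      (Computable.comp
        (f := fun q : List (ℕ × List (RawCoord n)) × Step n => q.1.flatMap (rawStep eqw q.2))
        (g := fun p : ((List (Step n) × List (ℕ × List (RawCoord n))) ×
          List (ℕ × List (RawCoord n))) × Step n => (p.1.2, p.2))
        hmap (Computable.pair (Computable.snd.comp Computable.fst) Computable.snd)))
  exact hfold

/-- **The test is computable.** -/
theorem computable_wordTest (he : Computable eqw) : Computable (wordTest eqw) := by
  have hA : Primrec fun q : (List (Step n) × ℕ) × List (RawCoord n) =>
      q.2 ++ markers (2 * q.1.1.length + 1) (markLevel q.1.1) :=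
    Primrec.list_append.comp Primrec.snd (primrec_markers.comp
      (Primrec.succ.comp (Primrec.nat_mul.comp (Primrec.const 2)
        (Primrec.list_length.comp (Primrec.fst.comp Primrec.fst))))
      (primrec_markLevel.comp (Primrec.fst.comp Primrec.fst)))
  have hstart : Computable fun q : (List (Step n) × ℕ) × List (RawCoord n) =>
      (q.1.2, q.2 ++ markers (2 * q.1.1.length + 1) (markLevel q.1.1)) :=
    Computable.pair (Computable.snd.comp Computable.fst) hA.to_comp
  have hL : Computable fun q : (List (Step n) × ℕ) × List (RawCoord n) =>
      (q.1.2, q.2 ++ markers (2 * q.1.1.length + 1) (markLevel q.1.1)) ::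
        rawTerms eqw q.1.1 [(q.1.2, q.2 ++ markers (2 * q.1.1.length + 1) (markLevel q.1.1))] :=
    Computable.list_cons.comp hstart ((computable_rawTerms he).comp
      (Computable.fst.comp Computable.fst)
      (Computable.list_cons.comp hstart (Computable.const [])))
  have heven : Primrec fun k : ℕ => decide (k % 2 = 0) :=
    PrimrecPred.decide (Primrec.eq.comp (Primrec.nat_mod.comp Primrec.id (Primrec.const 2))
      (Primrec.const 0))
  have hpoint : Computable fun q : (List (Step n) × ℕ) × List (RawCoord n) =>
      pointTest eqw q.1.1 q.1.2 q.2 :=
    computable_all hL (heven.to_comp.comp (computable_countTrue (hL.comp Computable.fst)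
      ((computable_termEq he).comp Computable.snd
        (Computable.snd.comp Computable.fst)).to₂)).to₂
  exact computable_all
    (Primrec.list_range.comp (Primrec.succ.comp (primrec_listSum.comp
      (Primrec.list_map Primrec.id (Primrec.fst.comp Primrec.snd).to₂)))).to_comp
    (computable_all ((primrec_patterns.comp primrec_readSet).to_comp.comp Computable.fst)
      hpoint.to₂).to₂

end FA.BooneHigman
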