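import Fermat.Agent.BooneHigman.Decision
import Fermat.Agent.Undecidability.UniversalGroup

/-!
# A group with solvable word problem lies in a simple subgroup of a finitely presented group

The elementary group over the crossed product is simple, is generated by countably many
transvections with computable word problem and contains the group, each element as a commutator of
units put on the diagonal.
-/

set_option autoImplicit false

namespace FA.BooneHigman

variable {n : ℕ} {G : Type} [Group G]

theorem codeOp_mem (π : FreeGroup (Fin n) →* G) (c : Code n) : codeOp π c ∈ crossedRing G := by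
  rcases c with _ | c | c | b | x
  · simp [codeOp, codeMove, moveOp_id]
  · exact Subring.subset_closure (Or.inl ⟨_, rfl⟩)
  · exact (mem_flipMove _).mem
  · cases b
    · exact mem_shiftPerm.mem_inv
    · exact mem_shiftPerm.mem
  · exact (mem_lampPerm _).mem

theorem crossedRing_eq_closure {π : FreeGroup (Fin n) →* G} (hπ : Function.Surjective π) :
    crossedRing G = Subring.closure (Set.range (codeOp π)) := by
  refine le_antisymm (Subring.closure_le.2 ?_)
    (Subring.closure_le.2 (Set.range_subset_iff.2 (codeOp_mem π)))
  have hco : ∀ i : Coord G, ∃ c : RawCoord n, decCoord π c = i := by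
    rintro ⟨h, k, m⟩
    obtain ⟨u, rfl⟩ := hπ h
    refine ⟨(u.toWord, (k.toNat, (-k).toNat), m), Prod.ext (by simp [decCoord, FreeGroup.mk_toWord])
      (Prod.ext ?_ rfl)⟩
    simp only [decCoord]
    omega
  rintro r (⟨i, rfl⟩ | ⟨i, rfl⟩ | rfl | rfl | ⟨g, rfl⟩)
  · obtain ⟨c, rfl⟩ := hco i
    exact Subring.subset_closure ⟨some (.inl c), rfl⟩
  · obtain ⟨c, rfl⟩ := hco i
    exact Subring.subset_closure ⟨some (.inr (.inl c)), rfl⟩
  · exact Subring.subset_closure ⟨some (.inr (.inr (.inl true))), rfl⟩
  · exact Subring.subset_closure ⟨some (.inr (.inr (.inl false))), rfl⟩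
  · obtain ⟨u, rfl⟩ := hπ g
    rw [← FreeGroup.mk_toWord (x := u)]
    induction u.toWord with
    | nil =>
      rw [← FreeGroup.one_eq_mk, map_one, map_one, moveOp_id]
      exact one_mem _
    | cons x w ih =>
      have h : moveOp (lampPerm (π (FreeGroup.mk (x :: w))), (0 : Config G)) =
          moveOp (lampPerm (π (FreeGroup.mk [x])), 0) *
            moveOp (lampPerm (π (FreeGroup.mk w)), 0) := by
        rw [moveOp_mul, decCoord_cons π x w, map_mul]
        exact congrArg moveOp (Prod.ext rfl (funext fun i => (add_zero 0).symm))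
      rw [h]
      exact mul_mem (Subring.subset_closure ⟨some (.inr (.inr (.inr x))), rfl⟩) ih

/-- The transvection with a number. -/
def decStep (k : ℕ) : Step n := (Encodable.decode (α := Step n) k).getD (0, 0, none)

omit [Group G] in
theorem end_neg_eq (r : AddMonoid.End (Space G)) : -r = r :=
  DFunLike.ext _ _ fun _ => funext fun _ => CharTwo.neg_eq _

/-- The transvections as elements of the elementary group. -/
noncomputable def stepGen (π : FreeGroup (Fin n) →* G) (k : ℕ) : elemGroup (crossedRing G) :=
  ⟨elem (decStep (n := n) k).1 (decStep (n := n) k).2.1 (codeOp π (decStep (n := n) k).2.2),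
    elem_mem _ (codeOp_mem π _)⟩

theorem stepGen_surjective {π : FreeGroup (Fin n) →* G} (hπ : Function.Surjective π) :
    Function.Surjective (FreeGroup.lift (stepGen π)) := by
  have hle : elemGroup (crossedRing G) ≤
      (FreeGroup.lift (stepGen π)).range.map (elemGroup (crossedRing G)).subtype := by
    conv_lhs => rw [crossedRing_eq_closure hπ, elemGroup_closure]
    rw [Subgroup.closure_le]
    rintro _ ⟨i, j, r, hr, rfl⟩
    obtain ⟨c, rfl⟩ : ∃ c, codeOp π c = r := by
      rcases Set.mem_insert_iff.1 hr with rfl | hr
      · exact ⟨none, moveOp_id⟩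
      · exact hr
    refine ⟨stepGen π (Encodable.encode (i, j, c)), ⟨FreeGroup.of _, FreeGroup.lift_apply_of⟩, ?_⟩
    simp [stepGen, decStep]
  intro z
  obtain ⟨y, ⟨u, hu⟩, e⟩ := hle z.2
  exact ⟨u, hu.trans (Subtype.ext e)⟩

theorem stepGen_lift (π : FreeGroup (Fin n) →* G) (w : List (ℕ × Bool)) :
    ((FreeGroup.lift (stepGen π) (FreeGroup.mk w) : elemGroup (crossedRing G)) :
      Equiv.Perm (ℕ → Space G)) = wordPerm π (w.map fun x => decStep x.1) := by
  induction w with
  | nil => rfl
  | cons x w ih =>
    rw [← List.singleton_append, Undecidability.freeMk_append, map_mul, Subgroup.coe_mul, ih,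
      List.singleton_append, List.map_cons]
    refine congrArg (· * _) ?_
    obtain ⟨k, b⟩ := x
    cases b
    · rw [show FreeGroup.mk [(k, false)] = (FreeGroup.of k)⁻¹ from rfl, map_inv,
        Subgroup.coe_inv, FreeGroup.lift_apply_of, stepGen, elem_inv, end_neg_eq]
    · rw [show FreeGroup.mk [(k, true)] = FreeGroup.of k from rfl, FreeGroup.lift_apply_of,
        stepGen]

/-- The lamp at level zero as an operator. -/
noncomputable def lampOp : G →* AddMonoid.End (Space G) where
  toFun g := moveOp (pointLamp g, 0)
  map_one' := by rw [map_one]; exact moveOp_id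
  map_mul' g g' := by
    rw [moveOp_mul, map_mul]
    exact congrArg moveOp (Prod.ext rfl (funext fun i => (add_zero 0).symm))

theorem lampOp_injective : Function.Injective (lampOp (G := G)) := by
  classical
  refine (injective_iff_map_eq_one _).2 fun g hg => ?_
  by_contra hne
  have h := congrFun (DFunLike.congr_fun hg fun ω => ω (1, 0, 0))
    (Pi.single ((1, 0, 0) : Coord G) 1)
  have e : pointLamp g ((1, 0, 0) : Coord G) = (g, 0, 0) :=
    Prod.ext (mul_one g) rfl
  simp [lampOp, moveOp_apply, moveFun, e, hne] at h

theorem primrec_decSteps :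
    Primrec fun w : List (ℕ × Bool) => w.map fun x => decStep (n := n) x.1 := by
  have h0 : Primrec fun k : ℕ => (Encodable.decode (α := Step n) k) := Primrec.decode
  have h1 : Primrec (decStep (n := n)) :=
    Primrec₂.comp (f := Option.getD (α := Step n)) Primrec.option_getD h0
      (Primrec.const (0, 0, none))
  have h2 : Primrec₂ fun (_ : List (ℕ × Bool)) (x : ℕ × Bool) => decStep (n := n) x.1 :=
    Primrec.to₂ (Primrec.comp h1 (Primrec.fst.comp Primrec.snd))
  exact Primrec.list_map Primrec.id h2

/-- A unit of a good move. -/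
def moveUnit (s : Move G) : (AddMonoid.End (Space G))ˣ :=
  ⟨moveOp s, moveOp (moveInv s), by rw [moveOp_mul, moveThen_inv, moveOp_id],
    by rw [moveOp_mul, moveInv_then, moveOp_id]⟩

theorem diag_lamp_mem (g : G) :
    diagZero (lampOp.toHomUnits g) ∈ elemGroup (crossedRing G) := by
  have h : lampOp.toHomUnits g = moveUnit (lampPerm g, 0) * moveUnit (shiftPerm, 0) *
      (moveUnit (lampPerm g, 0))⁻¹ * (moveUnit (shiftPerm, 0))⁻¹ := by
    refine Units.ext ?_
    change moveOp (pointLamp g, 0) = moveOp (lampPerm g, (0 : Config G)) *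
      moveOp (shiftPerm, 0) * moveOp (moveInv (lampPerm g, 0)) * moveOp (moveInv (shiftPerm, 0))
    simp only [moveOp_mul]
    refine congrArg moveOp (Prod.ext (pointLamp_eq g) (funext fun i => ?_))
    simp [moveThen, moveInv]
  rw [h]
  exact diagZero_commutator_mem (mem_lampPerm g).mem (mem_lampPerm g).mem_inv mem_shiftPerm.mem
    mem_shiftPerm.mem_inv

/-- **Boone and Higman.** Solvable word problem gives a simple subgroup of a finitely presented
group. -/
theorem exists_simple_overgroup (π : FreeGroup (Fin n) →* G) (hπ : Function.Surjective π)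
    (hC : ComputablePred fun w : List (Fin n × Bool) => π (FreeGroup.mk w) = 1) :
    ∃ (P : Type) (_ : Group P) (H : Subgroup P) (ρ : G →* H),
      Group.IsFinitelyPresented P ∧ IsSimpleGroup H ∧ Function.Injective ρ := by
  obtain ⟨eqw, heq, he⟩ := ComputablePred.computable_iff.1 hC
  have he' : ∀ u, eqw u = true ↔ π (FreeGroup.mk u) = 1 := fun u => iff_of_eq (congrFun he u).symm
  have hre : REPred fun w : List (ℕ × Bool) =>
      FreeGroup.lift (stepGen π) (FreeGroup.mk w) = 1 := by
    have h1 : Computable fun w : List (ℕ × Bool) => w.map fun x => decStep (n := n) x.1 :=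
      Primrec.to_comp primrec_decSteps
    have h2 : Computable (wordTest eqw) := computable_wordTest heq
    have hiff := wordTest_iff he'
    generalize wordTest eqw = f at h2 hiff
    refine ComputablePred.to_re (ComputablePred.computable_iff.2
      ⟨_, Computable.comp h2 h1, funext fun w => propext ?_⟩)
    rw [hiff, ← stepGen_lift, OneMemClass.coe_eq_one]
  obtain ⟨P, _, σ, hP, hσ⟩ :=
    Undecidability.exists_fp_of_countable (stepGen π) (stepGen_surjective hπ) hre
  have hnt : (1 : AddMonoid.End (Space G)) ≠ 0 := by
    intro h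
    have := congrFun (DFunLike.congr_fun h fun _ => (1 : ZMod 2)) 0
    exact one_ne_zero this
  let e := MonoidHom.ofInjective hσ
  let δ : G →* elemGroup (crossedRing G) :=
    (diagZero.comp lampOp.toHomUnits).codRestrict (elemGroup (crossedRing G)) diag_lamp_mem
  refine ⟨P, inferInstance, σ.range, e.toMonoidHom.comp δ, hP,
    e.isSimpleGroup_congr.1 (isSimpleGroup_elemGroup isSimpleIn_crossedRing hnt),
    e.injective.comp fun x y h => lampOp_injective ?_⟩
  exact congrArg Units.val (diagZero_injective (congrArg Subtype.val h))

end FA.BooneHigman
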