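import Fermat.Agent.Undecidability.RelationSearch

/-!
# Subgroups of simple subgroups of finitely presented groups

A word is not a relation if and only if adding it to the relators kills one fixed nontrivial
element of the simple subgroup, and this can be searched (Kuznetsov).
-/

set_option autoImplicit false

namespace FA.BooneHigman

open Undecidability

variable {n : ℕ} {G : Type} [Group G]

/-- **Kuznetsov.** The word problem is solvable. -/
theorem computable_of_simple_overgroup (π : FreeGroup (Fin n) →* G) {P : Type} [Group P]
    (hP : Group.IsFinitelyPresented P) (H : Subgroup P) [IsSimpleGroup H] (ρ : G →* H)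
    (hρ : Function.Injective ρ) :
    ComputablePred fun w : List (Fin n × Bool) => π (FreeGroup.mk w) = 1 := by
  classical
  obtain ⟨m, φ, hφ, S, hS, hSφ⟩ := hP.out
  obtain ⟨k, s, -, rfl⟩ := Set.Finite.fin_param hS
  obtain ⟨c, hc⟩ := exists_ne (1 : H)
  obtain ⟨c₀, hc₀⟩ := hφ (c : P)
  let ψ : G →* P := H.subtype.comp ρ
  choose v hv using fun i => hφ (ψ (π (FreeGroup.of i)))
  let sub : FreeGroup (Fin n) →* FreeGroup (Fin m) := FreeGroup.lift v
  have hsub : ∀ u, φ (sub u) = ψ (π u) := fun u =>
    DFunLike.congr_fun (f := φ.comp sub) (g := ψ.comp π)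
      (FreeGroup.ext_hom _ _ fun i => by simp [sub, hv]) u
  let subw : Fin n × Bool → List (Fin m × Bool) := fun x => (sub (FreeGroup.mk [x])).toWord
  have hsubw : ∀ w, FreeGroup.mk (w.flatMap subw) = sub (FreeGroup.mk w) := by
    intro w
    induction w with
    | nil => exact (map_one sub).symm
    | cons x w ih =>
      rw [List.flatMap_cons, freeMk_append, ih, ← List.singleton_append, freeMk_append, map_mul,
        FreeGroup.mk_toWord]
  -- the relators with one word added
  let rel : List (Fin n × Bool) → Option (Fin k) → List (Fin m × Bool) := fun w r =>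
    Option.casesOn r (w.flatMap subw) fun i => (s i).toWord
  have hw : Primrec fun w : List (Fin n × Bool) => w.flatMap subw :=
    Primrec.list_flatMap Primrec.id ((Primrec.dom_finite subw).comp Primrec.snd).to₂
  have hrel : Primrec₂ rel :=
    (Primrec.option_casesOn Primrec.snd (hw.comp Primrec.fst)
      ((Primrec.dom_finite fun i => (s i).toWord).comp Primrec.snd).to₂).to₂
  have hnot : REPred fun w : List (Fin n × Bool) => ¬π (FreeGroup.mk w) = 1 := by
    have hword : Primrec₂ fun (w : List (Fin n × Bool))
        (c : List (List (Fin m × Bool) × Option (Fin k) × Bool)) => searchWord (rel w) c := by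
      have h1 : Primrec₂ fun (w : List (Fin n × Bool))
          (e : List (Fin m × Bool) × Option (Fin k) × Bool) =>
          e.1 ++ cond e.2.2 (rel w e.2.1) (FreeGroup.invRev (rel w e.2.1)) ++
            FreeGroup.invRev e.1 :=
        (Primrec.list_append.comp (Primrec.list_append.comp (Primrec.fst.comp Primrec.snd)
          (Primrec.cond (Primrec.snd.comp (Primrec.snd.comp Primrec.snd))
            (hrel.comp Primrec.fst (Primrec.fst.comp (Primrec.snd.comp Primrec.snd)))
            (primrec_invRev.comp
              (hrel.comp Primrec.fst (Primrec.fst.comp (Primrec.snd.comp Primrec.snd))))))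
          (primrec_invRev.comp (Primrec.fst.comp Primrec.snd))).to₂
      exact (Primrec.list_flatMap Primrec.snd
        (h1.comp (Primrec.fst.comp Primrec.fst) Primrec.snd).to₂).to₂
    have hcheck : Primrec₂ fun (w : List (Fin n × Bool))
        (c : List (List (Fin m × Bool) × Option (Fin k) × Bool)) =>
        decide (FreeGroup.reduce (searchWord (rel w) c) = c₀.toWord) :=
      (PrimrecPred.decide (Primrec.eq.comp (primrec_freeReduce_gen.comp hword)
        (Primrec.const c₀.toWord))).to₂
    refine (rePred_exists hcheck).of_eq fun w => ?_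
    simp only [decide_eq_true_eq, ← FreeGroup.toWord_mk, FreeGroup.toWord_inj]
    let R := {y | ∃ r, true = true ∧ y = FreeGroup.mk (rel w r)}
    have hcert := mem_normalClosure_iff_search (fun _ => true) (rel w) c₀
    refine Iff.trans ?_ (show c₀ ∈ Subgroup.normalClosure R ↔ _ from ?_)
    · rw [hcert]
      simp
    constructor
    · intro h hone
      have hle : Subgroup.normalClosure R ≤ φ.ker := by
        refine Subgroup.normalClosure_le_normal ?_
        rintro _ ⟨r | i, -, rfl⟩
        · rw [SetLike.mem_coe, MonoidHom.mem_ker, hsubw, hsub, hone, map_one]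
        · rw [SetLike.mem_coe, FreeGroup.mk_toWord, ← hSφ]
          exact Subgroup.subset_normalClosure ⟨i, rfl⟩
      exact hc (Subtype.ext (hc₀.symm.trans (hle h)))
    · intro hne
      let N := Subgroup.normalClosure R
      have hker : φ.ker ≤ N := by
        rw [← hSφ]
        refine Subgroup.normalClosure_le_normal ?_
        rintro _ ⟨i, rfl⟩
        exact Subgroup.subset_normalClosure ⟨some i, rfl, FreeGroup.mk_toWord.symm⟩
      have : (N.map φ).Normal := Subgroup.Normal.map inferInstance φ hφ
      have hy : ρ (π (FreeGroup.mk w)) ∈ (N.map φ).comap H.subtype :=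
        ⟨_, Subgroup.subset_normalClosure ⟨none, rfl, rfl⟩,
          (congrArg φ (hsubw w)).trans (hsub _)⟩
      rcases IsSimpleGroup.eq_bot_or_eq_top_of_normal ((N.map φ).comap H.subtype)
        inferInstance with h | h
      · rw [h, Subgroup.mem_bot] at hy
        exact absurd (hρ (hy.trans (map_one ρ).symm)) hne
      · obtain ⟨u, hu, e⟩ := (h ▸ Subgroup.mem_top c : c ∈ (N.map φ).comap H.subtype)
        have : u⁻¹ * c₀ ∈ N := hker (by rw [MonoidHom.mem_ker, map_mul, map_inv, e, hc₀]; simp)
        simpa using mul_mem hu this
  refine ComputablePred.computable_iff_re_compl_re'.2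
    ⟨rePred_of_embedding π hP (H.subtype.comp ρ) ?_, hnot⟩
  exact H.subtype_injective.comp hρ

end FA.BooneHigman
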