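import Fermat.Agent.BooneHigman.Codes

/-!
# The finite test for the identity

A word in transvections is the identity if and only if, on every configuration made of a pattern
on the coordinates it reads and of markers far above, the terms cancel in pairs.
-/

set_option autoImplicit false

namespace FA.BooneHigman

variable {n : ℕ}

/-- Every class in a list is even if and only if all sums over the classes vanish. -/
theorem parity_iff {β γ : Type*} (key : β → γ) (eqv : β → β → Bool) (l : List β)
    (h : ∀ x ∈ l, ∀ y ∈ l, (eqv x y = true ↔ key x = key y)) :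
    (∀ y ∈ l, (l.filter fun x => eqv x y).length % 2 = 0) ↔
      ∀ F : γ → ZMod 2, (l.map fun x => F (key x)).sum = 0 := by
  classical
  have hfil : ∀ y ∈ l, ∀ F : γ → ZMod 2, (l.filter fun x => eqv x y).length = l.countP
      (fun x => decide (key x = key y)) := fun y hy _ => by
    rw [List.countP_eq_length_filter]
    exact congrArg List.length (List.filter_congr fun x hx => Bool.eq_iff_iff.2 (by
      simp [h x hx y hy]))
  have hind : ∀ (l : List β) (y : β),
      (l.map fun x => if key x = key y then (1 : ZMod 2) else 0).sum =
      (l.countP fun x => decide (key x = key y) : ℕ) := by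
    intro l y
    induction l with
    | nil => rfl
    | cons x l ih => by_cases hx : key x = key y <;> simp [hx, ih, add_comm]
  constructor
  · intro hev F
    have hall : ∀ g : γ, ((l.map key).count g : ZMod 2) = 0 := by
      intro g
      by_cases hg : g ∈ l.map key
      · obtain ⟨y, hy, rfl⟩ := List.mem_map.1 hg
        have e : (l.map key).count (key y) = l.countP fun x => decide (key x = key y) := by
          rw [List.count_eq_countP, List.countP_map]
          exact List.countP_congr fun x _ => by simp
        rw [e, ← hfil y hy F, ZMod.natCast_eq_zero_iff_even, Nat.even_iff]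
        exact hev y hy
      · simp [List.count_eq_zero_of_not_mem hg]
    rw [show (l.map fun x => F (key x)) = (l.map key).map F by rw [List.map_map]; rfl,
      Finset.sum_list_map_count]
    exact Finset.sum_eq_zero fun g _ => by rw [nsmul_eq_mul, hall, zero_mul]
  · intro hsum y hy
    have := hsum fun g => if g = key y then 1 else 0
    rw [hind, ← hfil y hy fun _ => 0, ZMod.natCast_eq_zero_iff_even, Nat.even_iff] at this
    exact this

variable (eqw : List (Fin n × Bool) → Bool)

/-- Equality of coded coordinates, from a test for the trivial element. -/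
def coordEq (c d : RawCoord n) : Bool :=
  eqw (c.1 ++ FreeGroup.invRev d.1) && (decide (c.2.1.1 + d.2.1.2 = d.2.1.1 + c.2.1.2) &&
    decide (c.2.2 = d.2.2))

/-- The value of a coded configuration at a coded coordinate. -/
def confVal (A : List (RawCoord n)) (d : RawCoord n) : Bool :=
  decide ((A.filter fun c => coordEq eqw c d).length % 2 = 1)

/-- One transvection applied to a coded term. -/
def rawStep (s : Step n) (p : ℕ × List (RawCoord n)) : List (ℕ × List (RawCoord n)) :=
  p :: cond (decide (p.1 = s.1) && (!decide (s.1 = s.2.1) &&
      (codeReads s.2.2).all fun u => confVal eqw p.2 u))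
    [(s.2.1, rawMove s.2.2 p.2)] []

/-- All coded terms. -/
def rawTerms (w : List (Step n)) (L : List (ℕ × List (RawCoord n))) :
    List (ℕ × List (RawCoord n)) :=
  w.foldl (fun L s => L.flatMap (rawStep eqw s)) L

/-- Equality of coded terms. -/
def termEq (p q : ℕ × List (RawCoord n)) : Bool :=
  decide (p.1 = q.1) && (p.2 ++ q.2).all fun c => !confVal eqw (p.2 ++ q.2) c

/-- All subsets. -/
def patterns {α : Type*} (U : List α) : List (List α) :=
  U.foldr (fun c acc => acc ++ acc.map (c :: ·)) [[]]

/-- A bound for the numbers of the coordinates. -/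
def markLevel (w : List (Step n)) : ℕ :=
  ((readSet w ++ w.flatMap fun s => codeFlips s.2.2).map fun c => c.2.2).sum + 1

/-- The test for one row and one pattern. -/
def pointTest (w : List (Step n)) (i : ℕ) (P : List (RawCoord n)) : Bool :=
  let A := P ++ markers (2 * w.length + 1) (markLevel w)
  let L := (i, A) :: rawTerms eqw w [(i, A)]
  L.all fun y => decide ((L.filter fun x => termEq eqw x y).length % 2 = 0)

/-- The test. -/
def wordTest (w : List (Step n)) : Bool :=
  (List.range ((w.map Prod.fst).sum + 1)).all fun i =>
    (patterns (readSet w)).all fun P => pointTest eqw w i P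

variable {G : Type} [Group G] {π : FreeGroup (Fin n) →* G} {eqw}
  (he : ∀ u, eqw u = true ↔ π (FreeGroup.mk u) = 1)
include he

theorem coordEq_iff (c d : RawCoord n) :
    coordEq eqw c d = true ↔ decCoord π c = decCoord π d := by
  obtain ⟨w, ⟨a, b⟩, m⟩ := c
  obtain ⟨w', ⟨a', b'⟩, m'⟩ := d
  simp only [coordEq, Bool.and_eq_true, decide_eq_true_eq, he, decCoord, Prod.mk.injEq,
    Undecidability.freeMk_append, map_mul, ← FreeGroup.inv_mk, map_inv, mul_inv_eq_one]
  refine and_congr_right fun _ => and_congr_left fun _ => ?_
  omega

theorem confVal_iff (A : List (RawCoord n)) (d : RawCoord n) :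
    confVal eqw A d = true ↔ confOf π A (decCoord π d) = 1 := by
  classical
  have h : confOf π A (decCoord π d) = ((A.filter fun c => coordEq eqw c d).length : ℕ) := by
    induction A with
    | nil => rfl
    | cons c A ih =>
      rw [confOf_cons, Pi.add_apply, ih, Pi.single_apply, List.filter_cons]
      by_cases hc : decCoord π c = decCoord π d
      · rw [if_pos hc.symm, if_pos ((coordEq_iff he c d).2 hc), List.length_cons]
        push_cast
        ring
      · rw [if_neg (Ne.symm hc), if_neg fun e => hc ((coordEq_iff he c d).1 e), zero_add]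
  rw [h, confVal, decide_eq_true_eq, ← Nat.odd_iff, ← ZMod.natCast_eq_one_iff_odd]

theorem termEq_iff (p q : ℕ × List (RawCoord n)) :
    termEq eqw p q = true ↔ (p.1, confOf π p.2) = (q.1, confOf π q.2) := by
  classical
  simp only [termEq, Bool.and_eq_true, decide_eq_true_eq, List.all_eq_true, Bool.not_eq_true',
    Prod.mk.injEq]
  refine and_congr_right fun _ => ?_
  rw [show confOf π p.2 = confOf π q.2 ↔ confOf π (p.2 ++ q.2) = 0 by
    rw [confOf_append]
    exact ⟨fun e => funext fun z => by rw [e]; exact CharTwo.add_self_eq_zero _,
      fun e => funext fun z => CharTwo.add_eq_zero.1 (congrFun e z)⟩]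
  refine ⟨fun h => funext fun z => ?_, fun h c _ => ?_⟩
  · by_cases hz : ∃ c ∈ p.2 ++ q.2, decCoord π c = z
    · obtain ⟨c, hc, rfl⟩ := hz
      refine (zmod_two_cases _).resolve_right fun e => ?_
      simpa [h c hc] using (confVal_iff he _ c).2 e
    · push Not at hz
      generalize p.2 ++ q.2 = A at hz
      induction A with
      | nil => rfl
      | cons c A ih =>
        rw [confOf_cons, Pi.add_apply, ih fun c hc => hz c (List.mem_cons_of_mem _ hc),
          Pi.single_eq_of_ne (hz c List.mem_cons_self).symm]
        rfl
  · refine Bool.eq_false_iff.2 fun e => ?_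
    have := (confVal_iff he _ c).1 e
    rw [h] at this
    exact zero_ne_one this

theorem rawTerms_map : ∀ (w : List (Step n)) (L : List (ℕ × List (RawCoord n))),
    (rawTerms eqw w L).map (fun p => (p.1, confOf π p.2)) = L.flatMap fun p =>
      (wordTerms π w p.1 (confOf π p.2)).map fun r => (r.1, moveFun r.2 (confOf π p.2))
  | [], L => by
    simp [rawTerms, wordTerms, moveFun_id, ← List.map_eq_flatMap]
  | (a, b, c) :: w, L => by
    classical
    rw [rawTerms, List.foldl_cons, ← rawTerms, rawTerms_map w, List.flatMap_assoc]
    refine List.flatMap_congr fun p _ => ?_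
    have hpass : (codeReads c).all (fun u => confVal eqw p.2 u) = true ↔
        Passes π c (confOf π p.2) := by
      simp [List.all_eq_true, Passes, confVal_iff he]
    simp only [rawStep, List.flatMap_cons, wordTerms, List.map_append]
    congr 1
    by_cases hcond : p.1 = a ∧ a ≠ b ∧ Passes π c (confOf π p.2)
    · rw [if_pos hcond, hpass.2 hcond.2.2]
      simp only [hcond.1, hcond.2.1, decide_true, decide_false, Bool.not_false, Bool.and_self,
        cond_true, List.flatMap_cons, List.flatMap_nil, List.append_nil, List.map_map,
        confOf_rawMove, Function.comp_def, moveFun_then]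
    · rw [if_neg hcond, List.map_nil, show (decide (p.1 = a) && (!decide (a = b) &&
          (codeReads c).all fun u => confVal eqw p.2 u)) = false from ?_]
      · rfl
      · refine Bool.eq_false_iff.2 fun e => hcond ?_
        simp only [Bool.and_eq_true, decide_eq_true_eq, Bool.not_eq_true', decide_eq_false_iff_not,
          hpass] at e
        exact e

omit he in
theorem exists_pattern (U : List (RawCoord n)) (ω : Config G) : ∃ P ∈ patterns U,
    (∀ c ∈ U, confOf π P (decCoord π c) = ω (decCoord π c)) ∧ ∀ c ∈ P, c ∈ U := by
  classical
  suffices h : ∃ P ∈ patterns U, (∀ z, confOf π P z =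
      if z ∈ U.map (decCoord π) then ω z else 0) ∧ ∀ c ∈ P, c ∈ U by
    obtain ⟨P, hP, hv, hsub⟩ := h
    exact ⟨P, hP, fun c hc => by rw [hv, if_pos (List.mem_map_of_mem hc)], hsub⟩
  induction U with
  | nil => exact ⟨[], List.mem_singleton_self [], fun z => rfl, fun c hc => hc⟩
  | cons c U ih =>
    obtain ⟨P, hP, hv, hsub⟩ := ih
    have hmem : ∀ Q, Q ∈ patterns U → Q ∈ patterns (c :: U) ∧ c :: Q ∈ patterns (c :: U) := by
      intro Q hQ
      simp only [patterns, List.foldr_cons, List.mem_append, List.mem_map] at hQ ⊢
      exact ⟨Or.inl hQ, Or.inr ⟨Q, hQ, rfl⟩⟩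
    by_cases hc : decCoord π c ∈ U.map (decCoord π) ∨ ω (decCoord π c) = 0
    · refine ⟨P, (hmem P hP).1, fun z => ?_, fun d hd => List.mem_cons_of_mem c (hsub d hd)⟩
      rw [hv]
      by_cases hz : z = decCoord π c
      · subst hz
        rcases hc with hc | hc
        · simp [hc]
        · simp [hc]
      · simp [List.mem_cons, hz]
    · push Not at hc
      refine ⟨c :: P, (hmem P hP).2, fun z => ?_, fun d hd => ?_⟩
      · rw [confOf_cons, Pi.add_apply, hv]
        by_cases hz : z = decCoord π c
        · subst hz
          simp [hc.1, (zmod_two_cases _).resolve_left hc.2]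
        · simp [List.mem_cons, hz]
      · rcases List.mem_cons.1 hd with rfl | hd
        exacts [List.mem_cons_self, List.mem_cons_of_mem c (hsub d hd)]

/-- The test for one row and one pattern says that the sums vanish. -/
theorem pointTest_iff (w : List (Step n)) (i : ℕ) (P : List (RawCoord n)) :
    pointTest eqw w i P = true ↔ ∀ F : ℕ × Config G → ZMod 2,
      F (i, confOf π (P ++ markers (2 * w.length + 1) (markLevel w))) +
        ((wordTerms π w i (confOf π (P ++ markers (2 * w.length + 1) (markLevel w)))).map
          fun r => F (r.1, moveFun r.2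
            (confOf π (P ++ markers (2 * w.length + 1) (markLevel w))))).sum = 0 := by
  simp only [pointTest, List.all_eq_true, decide_eq_true_eq]
  rw [parity_iff (fun p => (p.1, confOf π p.2)) (termEq eqw) _ fun x _ y _ => termEq_iff he x y]
  refine forall_congr' fun F => ?_
  rw [List.map_cons, List.sum_cons, show ((rawTerms eqw w [(i, P ++ markers (2 * w.length + 1)
    (markLevel w))]).map fun x => F (x.1, confOf π x.2)) = ((rawTerms eqw w [(i, P ++ markers
      (2 * w.length + 1) (markLevel w))]).map fun x => (x.1, confOf π x.2)).map F by
    rw [List.map_map]; rfl, rawTerms_map he]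
  simp [List.map_map, Function.comp_def]

/-- **The test decides the identity.** -/
theorem wordTest_iff (w : List (Step n)) : wordTest eqw w = true ↔ wordPerm π w = 1 := by
  classical
  simp only [wordTest, List.all_eq_true, List.mem_range]
  constructor
  · intro h
    refine Equiv.ext fun f => funext fun i => funext fun ω => ?_
    rw [Equiv.Perm.one_apply, wordPerm_apply]
    by_cases hi : i < (w.map Prod.fst).sum + 1
    · obtain ⟨P, hP, hv, hsub⟩ := exists_pattern (π := π) (readSet w) ω
      let m₀ := markLevel w
      let N := 2 * w.length + 1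
      let ω₀ : Config G := confOf π (P ++ markers N m₀)
      have hlt : ∀ c ∈ readSet w ++ w.flatMap (fun s => codeFlips s.2.2), c.2.2 < m₀ :=
        fun c hc => Nat.lt_succ_of_le (List.single_le_sum (fun _ _ => Nat.zero_le _) _
          (List.mem_map_of_mem hc))
      have hagree : ∀ u ∈ readSet w, ω (decCoord π u) = ω₀ (decCoord π u) := by
        intro u hu
        have : u.2.2 ≠ m₀ := (hlt u (List.mem_append_left _ hu)).ne
        have h0 : confOf π (markers (n := n) N m₀) (decCoord π u) = 0 := by
          rw [confOf_markers, if_neg fun h' => this h'.2.2.2]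
        simp [ω₀, confOf_append, hv u hu, h0]
      have hω₀ : ∀ z : Coord G, z.2.2 = m₀ → ω₀ z = confOf π (markers (n := n) N m₀) z := by
        intro z hz
        have hP0 : confOf π P z = 0 := by
          have : ∀ c ∈ P, decCoord π c ≠ z := fun c hc e =>
            (hlt c (List.mem_append_left _ (hsub c hc))).ne (by rw [← hz, ← e]; rfl)
          clear hsub hv hP hagree ω₀
          induction P with
          | nil => rfl
          | cons c P ih =>
            rw [confOf_cons, Pi.add_apply, ih fun c hc => this c (List.mem_cons_of_mem _ hc),
              Pi.single_eq_of_ne (this c List.mem_cons_self).symm]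
            rfl
        simp [ω₀, confOf_append, hP0]
      rw [wordTerms_congr π w i ω ω₀ hagree]
      set D := wordTerms π w i ω₀ with hD
      let xs := (i, ((1, 0) : Move G)) :: D
      have hb : ∀ x ∈ xs, IsBounded m₀ w.length x.2 := by
        intro x hx
        rcases List.mem_cons.1 hx with rfl | hx
        · exact isBounded_one m₀ _
        · exact isBounded_wordTerms π w i ω₀ (fun s hs u hu => hlt u
            (List.mem_append_right _ (List.mem_flatMap.2 ⟨s, hs, hu⟩))) x hx
      let F : ℕ × Config G → ZMod 2 := fun y =>
        if h : ∃ x ∈ xs, (x.1, moveFun x.2 ω₀) = y then f h.choose.1 (moveFun h.choose.2 ω) else 0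
      have hF : ∀ x ∈ xs, F (x.1, moveFun x.2 ω₀) = f x.1 (moveFun x.2 ω) := by
        intro x hx
        have hex : ∃ x' ∈ xs, (x'.1, moveFun x'.2 ω₀) = (x.1, moveFun x.2 ω₀) := ⟨x, hx, rfl⟩
        simp only [F, dif_pos hex]
        obtain ⟨hmem, e⟩ := hex.choose_spec
        have e1 : hex.choose.1 = x.1 := (Prod.mk.inj e).1
        have e2 : hex.choose.2 = x.2 := moveFun_injective_of_markers π le_rfl hω₀ (hb _ hmem)
          (hb x hx) (Prod.mk.inj e).2
        exact congrArg₂ (fun a b => f a (moveFun b ω)) e1 e2
      have htest := (pointTest_iff he w i P).1 (h i hi P hP) F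
      have h0 : F (i, ω₀) = f i ω := by
        have := hF (i, (1, 0)) List.mem_cons_self
        rwa [moveFun_id, moveFun_id] at this
      rw [h0, List.map_congr_left fun r hr => hF r (List.mem_cons_of_mem _ hr)] at htest
      exact (CharTwo.add_eq_zero.1 htest).symm
    · have hne : ∀ s ∈ w, i ≠ s.1 := fun s hs e => hi (Nat.lt_succ_of_le
        (e ▸ List.single_le_sum (fun _ _ => Nat.zero_le _) _ (List.mem_map_of_mem hs)))
      have : ∀ ω, wordTerms π w i ω = [(i, (1, 0))] := by
        clear h hi
        induction w with
        | nil => exact fun ω => rfl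
        | cons s w ih =>
          intro ω
          obtain ⟨a, b, c⟩ := s
          rw [wordTerms, ih (fun s hs => hne s (List.mem_cons_of_mem _ hs)),
            if_neg fun h' => hne _ List.mem_cons_self h'.1, List.append_nil]
      simp [this, moveFun_id]
  · intro h i _ P _
    refine (pointTest_iff he w i P).2 fun F => ?_
    have := congrFun (congrFun (Equiv.ext_iff.1 h fun j ω => F (j, ω)) i)
      (confOf π (P ++ markers (2 * w.length + 1) (markLevel w)))
    rw [Equiv.Perm.one_apply, wordPerm_apply] at this
    rw [this, CharTwo.add_self_eq_zero]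

end FA.BooneHigman
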